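import Fermat.Agent.S14.Analytic.ClassCountGlue

/-!
# S14, H2 Route II, work package P3: ideals of bounded norm in a class, with error term

* `latN_sub_le_of_tendsto` (P3b, abstract): a counting function `N` with
  `|N (k t) - k ^ n N t| ≤ C k ^ n t ^ m` and `N t / t ^ n → λ` satisfies `|N t - λ t ^ n| ≤ C t ^ m`.
* `classCount_of : LatticeCountStatement → NormLeOneFrontierStatement → ClassCountStatement`.
-/

set_option autoImplicit false

open NumberField Filter Topology IsDedekindDomain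
open NumberField.mixedEmbedding NumberField.mixedEmbedding.fundamentalCone
open scoped nonZeroDivisors Pointwise

namespace Fermat.Agent.S14An

/-- **(P3b)** abstract passage to the limit `k → ∞`. -/
theorem latN_sub_le_of_tendsto {N : ℝ → ℕ} {n m : ℕ} {C lam : ℝ}
    (hN : ∀ t : ℝ, 1 ≤ t → ∀ k : ℕ, 1 ≤ k →
      |(N (k * t) : ℝ) - (k : ℝ) ^ n * N t| ≤ C * (k : ℝ) ^ n * t ^ m)
    (hlim : Tendsto (fun t : ℝ => (N t : ℝ) / t ^ n) atTop (𝓝 lam)) :
    ∀ t : ℝ, 1 ≤ t → |lam * t ^ n - (N t : ℝ)| ≤ C * t ^ m := by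
  intro t ht
  have ht0 : 0 < t := lt_of_lt_of_le one_pos ht
  -- the sequence `k ↦ N (k t) / k ^ n` tends to `lam * t ^ n`
  have hkt : Tendsto (fun k : ℕ => (k : ℝ) * t) atTop atTop :=
    Tendsto.atTop_mul_const ht0 tendsto_natCast_atTop_atTop
  have h1 : Tendsto (fun k : ℕ => (N ((k : ℝ) * t) : ℝ) / ((k : ℝ) * t) ^ n * t ^ n) atTop
      (𝓝 (lam * t ^ n)) := (hlim.comp hkt).mul_const _
  have h2 : Tendsto (fun k : ℕ => |(N ((k : ℝ) * t) : ℝ) / ((k : ℝ) * t) ^ n * t ^ n - (N t : ℝ)|)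
      atTop (𝓝 |lam * t ^ n - (N t : ℝ)|) := (h1.sub_const _).abs
  refine le_of_tendsto h2 ?_
  filter_upwards [eventually_ge_atTop 1] with k hk
  have hk0 : (0 : ℝ) < (k : ℝ) := by exact_mod_cast hk
  have hkn : (0 : ℝ) < (k : ℝ) ^ n := pow_pos hk0 n
  have htn : (0 : ℝ) < t ^ n := pow_pos ht0 n
  have key := hN t ht k hk
  have e : (N ((k : ℝ) * t) : ℝ) / ((k : ℝ) * t) ^ n * t ^ n - (N t : ℝ) =
      ((N ((k : ℝ) * t) : ℝ) - (k : ℝ) ^ n * N t) / (k : ℝ) ^ n := by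
    rw [mul_pow]
    field_simp
  rw [e, abs_div, abs_of_pos hkn, div_le_iff₀ hkn]
  calc |(N ((k : ℝ) * t) : ℝ) - (k : ℝ) ^ n * N t| ≤ C * (k : ℝ) ^ n * t ^ m := key
    _ = C * t ^ m * (k : ℝ) ^ n := by ring

variable (K : Type) [Field K] [NumberField K]

open scoped Classical in
/-- the bound for one class. -/
theorem classCount_sub_le_of (h1 : LatticeCountStatement) (h2 : NormLeOneFrontierStatement)
    (C : ClassGroup (𝓞 K)) :
    ∃ B : ℝ, 0 ≤ B ∧ ∀ x : ℝ, 1 ≤ x →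
      |(classCount K C x : ℝ) - kappa K * x| ≤ B * x ^ (1 - 1 / (Module.finrank ℚ K : ℝ)) := by
  obtain ⟨J, hJ⟩ := ClassGroup.mk0_surjective C⁻¹
  set d := Module.finrank ℚ K with hd
  have hd0 : 0 < d := Module.finrank_pos
  obtain ⟨m, hm⟩ : ∃ m, m + 1 = d := ⟨d - 1, by omega⟩
  set b := fractionalIdealLatticeBasis K (FractionalIdeal.mk0 K J) with hb
  have hcard : m + 1 = Fintype.card (Module.Free.ChooseBasisIndex ℤ (FractionalIdeal.mk0 K J)) := by
    rw [card_chooseBasisIndex_fractionalIdeal, hm]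
  obtain ⟨C₁, hC₁⟩ := h1 _ (mixedSpace K) b (normLeOne K) m (isBounded_normLeOne K) hcard
    (h2 K m hm)
  rw [hm] at hC₁
  have hNJ : (0 : ℝ) < (Ideal.absNorm (J : Ideal (𝓞 K)) : ℕ) :=
    Nat.cast_pos.mpr (Ideal.absNorm_pos_of_nonZeroDivisors J)
  have hNJ1 : (1 : ℝ) ≤ (Ideal.absNorm (J : Ideal (𝓞 K)) : ℕ) := by
    exact_mod_cast Nat.one_le_iff_ne_zero.mpr (Ideal.absNorm_ne_zero_of_nonZeroDivisors J)
  have hw : (0 : ℝ) < (Units.torsionOrder K : ℝ) :=
    Nat.cast_pos.mpr (Nat.pos_of_ne_zero (Units.torsionOrder_ne_zero K))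
  set NJ : ℝ := ((Ideal.absNorm (J : Ideal (𝓞 K)) : ℕ) : ℝ) with hNJdef
  set w : ℝ := (Units.torsionOrder K : ℝ) with hwdef
  -- the limit of `latN t / t ^ d`
  have hlim : Tendsto (fun t : ℝ => (latN b (normLeOne K) t : ℝ) / t ^ d) atTop
      (𝓝 (kappa K * w / NJ)) := by
    have hs : Tendsto (fun t : ℝ => t ^ d / NJ) atTop atTop :=
      Tendsto.atTop_div_const hNJ (tendsto_pow_atTop hd0.ne')
    have h3 : Tendsto (fun t : ℝ => (classCount K C (t ^ d / NJ) : ℝ) / (t ^ d / NJ) * (w / NJ))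
        atTop (𝓝 (kappa K * (w / NJ))) := ((tendsto_classCount_div K C).comp hs).mul_const _
    rw [mul_div_assoc]
    refine h3.congr' ?_
    filter_upwards [eventually_gt_atTop 0] with t ht
    have htd : (0 : ℝ) < t ^ d := pow_pos ht d
    have e := latN_eq_classCount K C J hJ t ht
    rw [← hd] at e
    rw [e, Nat.cast_mul]
    change (classCount K C (t ^ d / NJ) : ℝ) / (t ^ d / NJ) * (w / NJ) =
      (classCount K C (t ^ d / NJ) : ℝ) * w / t ^ d
    field_simp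
  have hmain := latN_sub_le_of_tendsto (N := latN b (normLeOne K)) (n := d) (m := m)
    (C := C₁) (lam := kappa K * w / NJ) hC₁ hlim
  have hdR : (0 : ℝ) < (d : ℝ) := Nat.cast_pos.mpr hd0
  refine ⟨|C₁| * NJ ^ (1 - 1 / (d : ℝ)) / w, by positivity, fun x hx => ?_⟩
  have hx0 : 0 < x := lt_of_lt_of_le one_pos hx
  have hxN : 0 < x * NJ := mul_pos hx0 hNJ
  have hxN1 : 1 ≤ x * NJ := by nlinarith
  set t : ℝ := (x * NJ) ^ (1 / (d : ℝ)) with ht
  have ht1 : 1 ≤ t := Real.one_le_rpow hxN1 (by positivity)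
  have htd : t ^ d = x * NJ := by
    rw [ht, ← Real.rpow_natCast, ← Real.rpow_mul hxN.le, one_div, inv_mul_cancel₀ hdR.ne',
      Real.rpow_one]
  have htm : t ^ m = (x * NJ) ^ (1 - 1 / (d : ℝ)) := by
    rw [ht, ← Real.rpow_natCast, ← Real.rpow_mul hxN.le]
    congr 1
    have : (m : ℝ) = (d : ℝ) - 1 := by
      rw [← hm]; push_cast; ring
    rw [this]
    field_simp
  have hG3 : (latN b (normLeOne K) t : ℝ) = (classCount K C x : ℝ) * w := by
    rw [ht, ← classCount_mul_torsionOrder K C J hJ x hx0, Nat.cast_mul]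
  have h4 := hmain t ht1
  rw [htd, htm, hG3] at h4
  have e1 : kappa K * w / NJ * (x * NJ) - (classCount K C x : ℝ) * w =
      -(((classCount K C x : ℝ) - kappa K * x) * w) := by
    field_simp
    ring
  rw [e1, abs_neg, abs_mul, abs_of_pos hw] at h4
  rw [Real.mul_rpow hx0.le hNJ.le] at h4
  have h5 : |(classCount K C x : ℝ) - kappa K * x| * w ≤
      |C₁| * (x ^ (1 - 1 / (d : ℝ)) * NJ ^ (1 - 1 / (d : ℝ))) :=
    h4.trans (mul_le_mul_of_nonneg_right (le_abs_self _) (by positivity))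
  rw [div_mul_eq_mul_div, le_div_iff₀ hw]
  calc |(classCount K C x : ℝ) - kappa K * x| * w
      ≤ |C₁| * (x ^ (1 - 1 / (d : ℝ)) * NJ ^ (1 - 1 / (d : ℝ))) := h5
    _ = |C₁| * NJ ^ (1 - 1 / (d : ℝ)) * x ^ (1 - 1 / (d : ℝ)) := by ring

/-- **(P3)** `#{I ∈ C : N(I) ≤ x} = κ x + O(x ^ (1 - 1/d))`, with `κ` independent of the class,
from the lattice point count (P1) and the Lipschitz cover of the frontier of `normLeOne` (P2). -/
theorem classCount_of (h1 : LatticeCountStatement) (h2 : NormLeOneFrontierStatement) :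
    ClassCountStatement := by
  intro K _ _
  choose B hB0 hB using fun C : ClassGroup (𝓞 K) => classCount_sub_le_of K h1 h2 C
  refine ⟨kappa K, ∑ C, B C, fun C x hx => (hB C x hx).trans ?_⟩
  have hx0 : 0 < x := lt_of_lt_of_le one_pos hx
  refine mul_le_mul_of_nonneg_right ?_ (Real.rpow_nonneg hx0.le _)
  exact Finset.single_le_sum (fun c _ => hB0 c) (Finset.mem_univ C)

end Fermat.Agent.S14An
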