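import Fermat.Agent.S14.Analytic.Defs

/-!
# S14, H2 Route II, work package P4: `L(s, f)` is bounded near `s = 1` when `∑ f = 0`

`lBound_of : ClassCountStatement → LBoundStatement` (helper50).

With `a n = ∑_{N(I) = n} f([I])` we have `L(s, f) = LSeries a s` and
`∑_{k ≤ n} a k = ∑_c f c * classCount c n = O(n ^ (1 - 1/d))` since `∑ f = 0`; Abel summation
(`LSeries_eq_mul_integral`) gives `‖L(s, f)‖ ≤ s * C * ∫_1^∞ t ^ (r - s - 1) dt ≤ 2 C d`.
-/

set_option autoImplicit false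

open NumberField Filter Topology IsDedekindDomain
open scoped nonZeroDivisors

namespace Fermat.Agent.S14An

variable (K : Type*) [Field K] [NumberField K]

/-- The finite set of ideals of norm `n`. -/
noncomputable def lbFiber (n : ℕ) : Finset (Ideal (𝓞 K)) :=
  (Ideal.finite_setOfPred_absNorm_eq (S := 𝓞 K) n).toFinset

/-- The finite set of nonzero ideals of norm `≤ n`. -/
noncomputable def lbBall (n : ℕ) : Finset (Ideal (𝓞 K)) :=
  ((Set.finite_Icc 1 n).biUnion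
    (fun i _ => Ideal.finite_setOfPred_absNorm_eq (S := 𝓞 K) i)).toFinset

/-- `a n = ∑_{N(I) = n} f([I])`. -/
noncomputable def lbCoeff (f : ClassGroup (𝓞 K) → ℂ) (n : ℕ) : ℂ :=
  ∑ I ∈ lbFiber K n, f (classOf K I)

/-- `M = ∑_c ‖f c‖`. -/
noncomputable def lbMass (f : ClassGroup (𝓞 K) → ℂ) : ℝ := ∑ c, ‖f c‖

variable {K}

lemma mem_lbFiber {n : ℕ} {I : Ideal (𝓞 K)} : I ∈ lbFiber K n ↔ Ideal.absNorm I = n := by
  simp [lbFiber]

lemma mem_lbBall {n : ℕ} {I : Ideal (𝓞 K)} :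
    I ∈ lbBall K n ↔ 1 ≤ Ideal.absNorm I ∧ Ideal.absNorm I ≤ n := by
  simp [lbBall]

lemma lbMass_nonneg (f : ClassGroup (𝓞 K) → ℂ) : 0 ≤ lbMass K f :=
  Finset.sum_nonneg fun _ _ => norm_nonneg _

lemma norm_le_lbMass (f : ClassGroup (𝓞 K) → ℂ) (c : ClassGroup (𝓞 K)) : ‖f c‖ ≤ lbMass K f :=
  Finset.single_le_sum (f := fun c => ‖f c‖) (fun _ _ => norm_nonneg _) (Finset.mem_univ c)

/-! ### Step 1: `L(s, f)` as an `LSeries` -/

lemma norm_twWeight_le (f : ClassGroup (𝓞 K) → ℂ) (s : ℝ) (I : Ideal (𝓞 K)) :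
    ‖twWeight K f s I‖ ≤ lbMass K f * FrobDensity.normWeight K s I := by
  unfold twWeight
  rw [norm_mul, Complex.norm_real, Real.norm_of_nonneg (FrobDensity.normWeight_nonneg s I)]
  exact mul_le_mul_of_nonneg_right (norm_le_lbMass f _) (FrobDensity.normWeight_nonneg s I)

lemma summable_twWeight (f : ClassGroup (𝓞 K) → ℂ) {s : ℝ} (hs : 1 < s) :
    Summable (twWeight K f s) :=
  Summable.of_norm_bounded ((FrobDensity.summable_normWeight K hs).mul_left (lbMass K f))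
    (norm_twWeight_le f s)

/-- The sum of `twWeight` over the ideals of norm `n` is the `n`-th term of the `LSeries`. -/
lemma tsum_fiber_twWeight (f : ClassGroup (𝓞 K) → ℂ) {s : ℝ} (hs : s ≠ 0) (n : ℕ) :
    ∑' I : {I : Ideal (𝓞 K) // Ideal.absNorm I = n}, twWeight K f s I.1
      = LSeries.term (lbCoeff K f) (s : ℂ) n := by
  have hfin : {I : Ideal (𝓞 K) | Ideal.absNorm I = n}.Finite :=
    Ideal.finite_setOfPred_absNorm_eq n
  have h1 : ∑' I : {I : Ideal (𝓞 K) // Ideal.absNorm I = n}, twWeight K f s I.1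
      = ∑ I ∈ lbFiber K n, twWeight K f s I := by
    have := Finset.tsum_subtype' (lbFiber K n) (twWeight K f s)
    rw [← this]
    refine tsum_congr_set_coe (twWeight K f s) ?_
    ext I
    change Ideal.absNorm I = n ↔ I ∈ (lbFiber K n : Set (Ideal (𝓞 K)))
    rw [Finset.mem_coe, mem_lbFiber]
  rw [h1]
  rcases eq_or_ne n 0 with rfl | hn
  · rw [LSeries.term_zero]
    refine Finset.sum_eq_zero fun I hI => ?_
    rw [mem_lbFiber] at hI
    simp [twWeight, FrobDensity.normWeight, hI, Real.zero_rpow (neg_ne_zero.mpr hs)]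
  · rw [LSeries.term_of_ne_zero hn, lbCoeff, Finset.sum_div]
    refine Finset.sum_congr rfl fun I hI => ?_
    rw [mem_lbFiber] at hI
    unfold twWeight FrobDensity.normWeight
    rw [hI, Real.rpow_neg (Nat.cast_nonneg n), Complex.ofReal_inv,
      Complex.ofReal_cpow (Nat.cast_nonneg n), div_eq_mul_inv]
    simp

lemma LVal_eq_LSeries (f : ClassGroup (𝓞 K) → ℂ) {s : ℝ} (hs : 1 < s) :
    LVal K f s = LSeries (lbCoeff K f) (s : ℂ) := by
  have hsum := summable_twWeight f hs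
  unfold LVal LSeries
  rw [← (Equiv.sigmaFiberEquiv (fun I : Ideal (𝓞 K) ↦ Ideal.absNorm I)).tsum_eq]
  rw [← (Equiv.sigmaFiberEquiv (fun I : Ideal (𝓞 K) ↦ Ideal.absNorm I)).summable_iff] at hsum
  change Summable (fun p : (Σ n : ℕ, {I : Ideal (𝓞 K) // Ideal.absNorm I = n}) ↦
    twWeight K f s p.2.1) at hsum
  change ∑' p : (Σ n : ℕ, {I : Ideal (𝓞 K) // Ideal.absNorm I = n}), twWeight K f s p.2.1 = _
  rw [hsum.tsum_sigma]
  exact tsum_congr fun n ↦ tsum_fiber_twWeight f (by linarith) n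

/-! ### Step 2: the partial sums of the coefficients -/

lemma sum_Icc_lbCoeff_eq_sum_ball (f : ClassGroup (𝓞 K) → ℂ) (n : ℕ) :
    ∑ k ∈ Finset.Icc 1 n, lbCoeff K f k = ∑ I ∈ lbBall K n, f (classOf K I) := by
  classical
  rw [← Finset.sum_fiberwise_of_maps_to (s := lbBall K n) (t := Finset.Icc 1 n)
    (g := fun I => Ideal.absNorm I) (fun I hI => Finset.mem_Icc.mpr (mem_lbBall.mp hI))]
  refine Finset.sum_congr rfl fun k hk => ?_
  unfold lbCoeff
  refine Finset.sum_congr ?_ fun _ _ => rfl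
  ext I
  rw [mem_lbFiber, Finset.mem_filter, mem_lbBall]
  rw [Finset.mem_Icc] at hk
  constructor
  · intro h
    exact ⟨by rw [h]; exact hk, h⟩
  · exact fun h => h.2

lemma sum_ball_eq_sum_class (f : ClassGroup (𝓞 K) → ℂ) (n : ℕ) :
    ∑ I ∈ lbBall K n, f (classOf K I)
      = ∑ c, f c * (Nat.card {I : Ideal (𝓞 K) // I ∈ lbBall K n ∧ classOf K I = c} : ℂ) := by
  classical
  rw [← Finset.sum_fiberwise (s := lbBall K n) (g := classOf K)
    (f := fun I => f (classOf K I))]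
  refine Finset.sum_congr rfl fun c _ => ?_
  have h1 : ∑ I ∈ lbBall K n with classOf K I = c, f (classOf K I)
      = ∑ I ∈ lbBall K n with classOf K I = c, f c :=
    Finset.sum_congr rfl fun I hI => by rw [(Finset.mem_filter.mp hI).2]
  rw [h1, Finset.sum_const, nsmul_eq_mul, mul_comm]
  congr 2
  rw [← Nat.card_eq_finsetCard]
  refine Nat.card_congr (Equiv.subtypeEquivRight fun I => ?_)
  rw [Finset.mem_filter]

lemma card_ball_class_eq_classCount (c : ClassGroup (𝓞 K)) (n : ℕ) :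
    Nat.card {I : Ideal (𝓞 K) // I ∈ lbBall K n ∧ classOf K I = c} = classCount K c (n : ℝ) := by
  classical
  unfold classCount
  refine Nat.card_congr ?_
  refine
    { toFun := fun I => ⟨⟨I.1, ?_⟩, ?_, ?_⟩
      invFun := fun I => ⟨I.1.1, ?_, ?_⟩
      left_inv := fun I => rfl
      right_inv := fun I => rfl }
  · have h := (mem_lbBall.mp I.2.1).1
    refine mem_nonZeroDivisors_of_ne_zero fun h0 => ?_
    rw [h0] at h
    simp at h
  · have h := (mem_lbBall.mp I.2.1).2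
    exact_mod_cast h
  · have h := I.2.2
    have hne : I.1 ≠ ⊥ := by
      intro h0
      have h1 := (mem_lbBall.mp I.2.1).1
      rw [h0] at h1
      simp at h1
    simpa [classOf, hne] using h
  · rw [mem_lbBall]
    refine ⟨?_, by exact_mod_cast I.2.1⟩
    have hne : (I.1 : Ideal (𝓞 K)) ≠ ⊥ := nonZeroDivisors.coe_ne_zero I.1
    have : Ideal.absNorm (I.1 : Ideal (𝓞 K)) ≠ 0 := by
      rw [Ne, Ideal.absNorm_eq_zero_iff]; exact hne
    omega
  · have hne : (I.1 : Ideal (𝓞 K)) ≠ ⊥ := nonZeroDivisors.coe_ne_zero I.1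
    simpa [classOf, hne] using I.2.2

/-- `∑_{k ≤ n} a k = ∑_c f c * classCount c n`. -/
lemma sum_Icc_lbCoeff (f : ClassGroup (𝓞 K) → ℂ) (n : ℕ) :
    ∑ k ∈ Finset.Icc 1 n, lbCoeff K f k = ∑ c, f c * (classCount K c (n : ℝ) : ℂ) := by
  rw [sum_Icc_lbCoeff_eq_sum_ball, sum_ball_eq_sum_class]
  refine Finset.sum_congr rfl fun c _ => ?_
  rw [card_ball_class_eq_classCount]

/-! ### Step 3: the partial sums are `O(n ^ r)` -/

lemma norm_sum_Icc_lbCoeff_le (f : ClassGroup (𝓞 K) → ℂ) (hf : ∑ c, f c = 0) {κ B r : ℝ}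
    (h : ∀ (C : ClassGroup (𝓞 K)) (x : ℝ), 1 ≤ x →
      |(classCount K C x : ℝ) - κ * x| ≤ B * x ^ r) (n : ℕ) (hn : 1 ≤ n) :
    ‖∑ k ∈ Finset.Icc 1 n, lbCoeff K f k‖ ≤ lbMass K f * B * (n : ℝ) ^ r := by
  rw [sum_Icc_lbCoeff]
  have hn' : (1 : ℝ) ≤ (n : ℝ) := by exact_mod_cast hn
  have h1 : ∑ c, f c * (classCount K c (n : ℝ) : ℂ)
      = ∑ c, f c * (((classCount K c (n : ℝ) : ℝ) - κ * n : ℝ) : ℂ) := by
    have h0 : ∑ c, f c * (((κ * n : ℝ)) : ℂ) = 0 := by rw [← Finset.sum_mul, hf, zero_mul]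
    have h2 : ∑ c, f c * (((classCount K c (n : ℝ) : ℝ) - κ * n : ℝ) : ℂ)
        = ∑ c, f c * (classCount K c (n : ℝ) : ℂ) - ∑ c, f c * (((κ * n : ℝ)) : ℂ) := by
      rw [← Finset.sum_sub_distrib]
      refine Finset.sum_congr rfl fun c _ => ?_
      push_cast
      ring
    rw [h2, h0, sub_zero]
  rw [h1]
  calc ‖∑ c, f c * (((classCount K c (n : ℝ) : ℝ) - κ * n : ℝ) : ℂ)‖
      ≤ ∑ c, ‖f c * (((classCount K c (n : ℝ) : ℝ) - κ * n : ℝ) : ℂ)‖ := norm_sum_le _ _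
    _ ≤ ∑ c, ‖f c‖ * (B * (n : ℝ) ^ r) := by
        refine Finset.sum_le_sum fun c _ => ?_
        rw [norm_mul, Complex.norm_real, Real.norm_eq_abs]
        exact mul_le_mul_of_nonneg_left (h c n hn') (norm_nonneg _)
    _ = lbMass K f * B * (n : ℝ) ^ r := by
        rw [← Finset.sum_mul]
        unfold lbMass
        ring

lemma lbBound_nonneg {κ B r : ℝ}
    (h : ∀ (C : ClassGroup (𝓞 K)) (x : ℝ), 1 ≤ x →
      |(classCount K C x : ℝ) - κ * x| ≤ B * x ^ r) : 0 ≤ B := by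
  have h1 := h 1 1 le_rfl
  simp only [Real.one_rpow, mul_one] at h1
  exact (abs_nonneg _).trans h1

/-! ### Step 4: summability of the `LSeries` -/

lemma norm_lbCoeff_le (f : ClassGroup (𝓞 K) → ℂ) (n : ℕ) :
    ‖lbCoeff K f n‖ ≤ lbMass K f * (FrobDensity.idealCountAux K n : ℝ) := by
  unfold lbCoeff
  calc ‖∑ I ∈ lbFiber K n, f (classOf K I)‖
      ≤ ∑ I ∈ lbFiber K n, ‖f (classOf K I)‖ := norm_sum_le _ _
    _ ≤ ∑ _I ∈ lbFiber K n, lbMass K f := Finset.sum_le_sum fun I _ => norm_le_lbMass f _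
    _ = lbMass K f * ((lbFiber K n).card : ℝ) := by
        rw [Finset.sum_const, nsmul_eq_mul, mul_comm]
    _ = lbMass K f * (FrobDensity.idealCountAux K n : ℝ) := by
        congr 2
        unfold FrobDensity.idealCountAux
        rw [← Nat.card_eq_finsetCard]
        refine Nat.card_congr (Equiv.subtypeEquivRight fun I => ?_)
        rw [mem_lbFiber]

lemma lseriesSummable_lbCoeff (f : ClassGroup (𝓞 K) → ℂ) {s : ℝ} (hs : 1 < s) :
    LSeriesSummable (lbCoeff K f) (s : ℂ) := by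
  unfold LSeriesSummable
  refine Summable.of_norm_bounded
    ((FrobDensity.summable_idealCountAux_mul K hs).mul_left (lbMass K f)) fun n => ?_
  rw [LSeries.norm_term_eq]
  split_ifs with hn
  · subst hn
    have : (0 : ℝ) ≤ lbMass K f *
        ((FrobDensity.idealCountAux K 0 : ℝ) * ((0 : ℕ) : ℝ) ^ (-s)) :=
      mul_nonneg (lbMass_nonneg f)
        (mul_nonneg (Nat.cast_nonneg _) (Real.rpow_nonneg (Nat.cast_nonneg _) _))
    exact this
  · have hpos : (0 : ℝ) < (n : ℝ) := by exact_mod_cast Nat.pos_of_ne_zero hn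
    rw [Complex.ofReal_re, div_eq_mul_inv, ← Real.rpow_neg hpos.le, ← mul_assoc]
    exact mul_le_mul_of_nonneg_right (norm_lbCoeff_le f n) (Real.rpow_nonneg hpos.le _)

/-! ### Step 5: Abel summation -/

lemma isBigO_sum_Icc_lbCoeff (f : ClassGroup (𝓞 K) → ℂ) (hf : ∑ c, f c = 0) {κ B r : ℝ}
    (h : ∀ (C : ClassGroup (𝓞 K)) (x : ℝ), 1 ≤ x →
      |(classCount K C x : ℝ) - κ * x| ≤ B * x ^ r) :
    (fun n : ℕ ↦ ∑ k ∈ Finset.Icc 1 n, lbCoeff K f k) =O[atTop] fun n ↦ ((n : ℝ) ^ r : ℝ) := by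
  refine Asymptotics.IsBigO.of_bound (lbMass K f * B) ?_
  filter_upwards [eventually_ge_atTop 1] with n hn
  have hpos : (0 : ℝ) ≤ (n : ℝ) ^ r := Real.rpow_nonneg (Nat.cast_nonneg n) r
  rw [Real.norm_of_nonneg hpos]
  exact norm_sum_Icc_lbCoeff_le f hf h n hn

/-- The bound on the integrand of the Abel summation formula. -/
lemma norm_integrand_le (f : ClassGroup (𝓞 K) → ℂ) (hf : ∑ c, f c = 0) {κ B r : ℝ}
    (hr : 0 ≤ r)
    (h : ∀ (C : ClassGroup (𝓞 K)) (x : ℝ), 1 ≤ x →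
      |(classCount K C x : ℝ) - κ * x| ≤ B * x ^ r) (s : ℝ) {t : ℝ} (ht : 1 < t) :
    ‖(∑ k ∈ Finset.Icc 1 ⌊t⌋₊, lbCoeff K f k) * (t : ℂ) ^ (-((s : ℂ) + 1))‖
      ≤ (lbMass K f * B) * t ^ (r - s - 1) := by
  have ht0 : 0 < t := zero_lt_one.trans ht
  have hfl : 1 ≤ ⌊t⌋₊ := Nat.le_floor (by simpa using ht.le)
  have hB := lbBound_nonneg h
  rw [norm_mul, Complex.norm_cpow_eq_rpow_re_of_pos ht0]
  have hre : (-((s : ℂ) + 1)).re = -s - 1 := by simp; ring
  rw [hre]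
  have h1 := norm_sum_Icc_lbCoeff_le f hf h ⌊t⌋₊ hfl
  have h2 : ((⌊t⌋₊ : ℕ) : ℝ) ^ r ≤ t ^ r :=
    Real.rpow_le_rpow (Nat.cast_nonneg _) (Nat.floor_le ht0.le) hr
  have h3 : ‖∑ k ∈ Finset.Icc 1 ⌊t⌋₊, lbCoeff K f k‖ ≤ lbMass K f * B * t ^ r :=
    h1.trans (mul_le_mul_of_nonneg_left h2 (mul_nonneg (lbMass_nonneg f) hB))
  calc ‖∑ k ∈ Finset.Icc 1 ⌊t⌋₊, lbCoeff K f k‖ * t ^ (-s - 1)
      ≤ (lbMass K f * B * t ^ r) * t ^ (-s - 1) :=
        mul_le_mul_of_nonneg_right h3 (Real.rpow_nonneg ht0.le _)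
    _ = (lbMass K f * B) * t ^ (r - s - 1) := by
        rw [mul_assoc, ← Real.rpow_add ht0]
        congr 2
        ring

/-- `‖L(s, f)‖ ≤ s * M * B / (s - r)`. -/
lemma norm_LVal_le (f : ClassGroup (𝓞 K) → ℂ) (hf : ∑ c, f c = 0) {κ B r : ℝ}
    (hr : 0 ≤ r) (hr1 : r < 1)
    (h : ∀ (C : ClassGroup (𝓞 K)) (x : ℝ), 1 ≤ x →
      |(classCount K C x : ℝ) - κ * x| ≤ B * x ^ r) {s : ℝ} (hs : 1 < s) :
    ‖LVal K f s‖ ≤ s * ((lbMass K f * B) / (s - r)) := by
  have hrs : r < (s : ℂ).re := by simpa using hr1.trans hs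
  rw [LVal_eq_LSeries f hs, LSeries_eq_mul_integral (lbCoeff K f) hr hrs
    (lseriesSummable_lbCoeff f hs) (isBigO_sum_Icc_lbCoeff f hf h), norm_mul, Complex.norm_real,
    Real.norm_of_nonneg (by linarith : (0 : ℝ) ≤ s)]
  refine mul_le_mul_of_nonneg_left ?_ (by linarith)
  have ha : r - s - 1 < -1 := by linarith
  have hint : MeasureTheory.Integrable (fun t : ℝ => (lbMass K f * B) * t ^ (r - s - 1))
      (MeasureTheory.volume.restrict (Set.Ioi (1 : ℝ))) :=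
    (integrableOn_Ioi_rpow_of_lt ha zero_lt_one).const_mul _
  have hle := MeasureTheory.norm_integral_le_of_norm_le hint
    (f := fun t : ℝ => (∑ k ∈ Finset.Icc 1 ⌊t⌋₊, lbCoeff K f k) * (t : ℂ) ^ (-((s : ℂ) + 1)))
    ((MeasureTheory.ae_restrict_iff' measurableSet_Ioi).mpr
      (Filter.Eventually.of_forall fun t ht => norm_integrand_le f hf hr h s ht))
  refine hle.trans (le_of_eq ?_)
  rw [MeasureTheory.integral_const_mul, integral_Ioi_rpow_of_lt ha zero_lt_one, Real.one_rpow]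
  have hne : s - r ≠ 0 := by linarith
  have hne' : r - s - 1 + 1 ≠ 0 := by
    intro h0
    apply hne
    linarith
  field_simp
  ring

/-- **(P4)** `ClassCountStatement → LBoundStatement`. -/
theorem lBound_of (hCC : ClassCountStatement) : LBoundStatement := by
  intro K _ _ f hf
  obtain ⟨κ, B, h⟩ := hCC K
  have hd : (1 : ℝ) ≤ (Module.finrank ℚ K : ℝ) := by
    exact_mod_cast Module.finrank_pos (R := ℚ) (M := K)
  set d : ℝ := (Module.finrank ℚ K : ℝ) with hd_def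
  have hd0 : 0 < d := zero_lt_one.trans_le hd
  have hr : (0 : ℝ) ≤ 1 - 1 / d := by
    rw [sub_nonneg, div_le_one hd0]
    exact hd
  have hr1 : 1 - 1 / d < 1 := by
    have : 0 < 1 / d := by positivity
    linarith
  have hB := lbBound_nonneg h
  have hM := lbMass_nonneg f
  refine ⟨2 * (lbMass K f * B * d), fun s hs hs2 => ?_⟩
  refine (norm_LVal_le f hf hr hr1 h hs).trans ?_
  have hsr : 1 / d ≤ s - (1 - 1 / d) := by linarith
  have hsr0 : 0 < s - (1 - 1 / d) := lt_of_lt_of_le (by positivity) hsr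
  have h1 : (lbMass K f * B) / (s - (1 - 1 / d)) ≤ lbMass K f * B * d := by
    rw [div_le_iff₀ hsr0]
    have h2 : lbMass K f * B * d * (1 / d) ≤ lbMass K f * B * d * (s - (1 - 1 / d)) :=
      mul_le_mul_of_nonneg_left hsr (by positivity)
    have h3 : lbMass K f * B * d * (1 / d) = lbMass K f * B := by
      field_simp
    linarith
  have h4 : 0 ≤ lbMass K f * B * d := by positivity
  calc s * ((lbMass K f * B) / (s - (1 - 1 / d)))
      ≤ s * (lbMass K f * B * d) := mul_le_mul_of_nonneg_left h1 (by linarith)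
    _ ≤ 2 * (lbMass K f * B * d) := mul_le_mul_of_nonneg_right hs2 h4

end Fermat.Agent.S14An
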