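import Mathlib
import Fermat.Agent.S14.Interface
import Fermat.Agent.Lib.FrobDensity.EulerZeta

/-!
# S14, H2 Route II (analytic second inequality): definitions and interface statements

Blueprint: `NOTES/blueprint-S14-H2-analytic.md` (helper70).  As in `S14/Interface.lean`, the
statements exchanged between the work packages are `Prop`-valued *definitions*, so that every file
compiles without placeholders:

* the owner of a work package proves `theorem xxx : Fermat.Agent.S14An.XxxStatement`;
* a user takes `(h : Fermat.Agent.S14An.XxxStatement)` as a hypothesis.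

Chain:  `LatticeCountStatement` (P1) + `NormLeOneFrontierStatement` (P2)
          ⟹ (P3) `ClassCountStatement` ⟹ (P4) `LBoundStatement`;
        `LBoundStatement` + `EulerCharStatement` (P5) + `CharProdStatement` (P6)
          + `NormClassPrimeSumStatement` (P7) ⟹ (P8) `Fermat.Agent.S14.SecondIneq`.
-/

set_option autoImplicit false

open NumberField Filter Topology IsDedekindDomain
open scoped nonZeroDivisors Pointwise

namespace Fermat.Agent.S14An

/-! ## P1: lattice points in dilates of a set with Lipschitz boundary (pure geometry) -/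

/-- `S` is covered by finitely many Lipschitz images of the unit cube `[0,1]^m`. -/
def LipCover {E : Type*} [PseudoEMetricSpace E] (m : ℕ) (S : Set E) : Prop :=
  ∃ (J : ℕ) (φ : Fin J → (Fin m → ℝ) → E) (Λ : NNReal),
    (∀ j, LipschitzOnWith Λ (φ j) (Set.Icc 0 1)) ∧ S ⊆ ⋃ j, φ j '' Set.Icc 0 1

/-- The number of points of the lattice `span ℤ (range b)` in the dilate `t • D`. -/
noncomputable def latN {ι E : Type*} [AddCommGroup E] [Module ℝ E] (b : Module.Basis ι ℝ E)
    (D : Set E) (t : ℝ) : ℕ :=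
  Nat.card {x : E // x ∈ Submodule.span ℤ (Set.range b) ∧ x ∈ t • D}

/-- **(P1)** If `D` is bounded and its frontier is covered by finitely many Lipschitz images of
`[0,1]^(n-1)`, `n = dim E`, then refining the lattice by `k` multiplies the number of lattice
points in `t • D` by `k ^ n`, up to an error `O(k ^ n * t ^ (n - 1))`, uniformly in `t ≥ 1`, `k ≥ 1`.
(No measure theory: every closed fundamental parallelepiped `z + ∑ [0,1] b_i` which does not meet
`frontier (t • D)` is inside or outside `t • D`; the others are `O(t ^ (n - 1))` in number.) -/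
def LatticeCountStatement : Prop :=
  ∀ (ι E : Type) [Fintype ι] [NormedAddCommGroup E] [NormedSpace ℝ E] [FiniteDimensional ℝ E]
    (b : Module.Basis ι ℝ E) (D : Set E) (m : ℕ), Bornology.IsBounded D →
    m + 1 = Fintype.card ι → LipCover m (frontier D) →
    ∃ C : ℝ, ∀ t : ℝ, 1 ≤ t → ∀ k : ℕ, 1 ≤ k →
      |(latN b D (k * t) : ℝ) - (k : ℝ) ^ (m + 1) * latN b D t| ≤ C * (k : ℝ) ^ (m + 1) * t ^ m

/-! ## P2: the frontier of `normLeOne K` -/

/-- **(P2)** The frontier of `normLeOne K` (elements of the fundamental cone of norm `≤ 1`, in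
`mixedSpace K`, with its sup metric; the `Fintype` instances on the real / complex places are the
classical ones, as in Mathlib) is covered by finitely many Lipschitz images of `[0,1]^(d-1)`,
`d = [K : ℚ]`. -/
def NormLeOneFrontierStatement : Prop :=
  open scoped Classical in
  ∀ (K : Type) [Field K] [NumberField K] (m : ℕ), m + 1 = Module.finrank ℚ K →
    LipCover m (frontier (mixedEmbedding.fundamentalCone.normLeOne K))

/-! ## P3: ideals of bounded norm in a class, with a power saving error term -/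

/-- The number of nonzero integral ideals of norm `≤ x` in the class `C`. -/
noncomputable def classCount (K : Type*) [Field K] [NumberField K] (C : ClassGroup (𝓞 K))
    (x : ℝ) : ℕ :=
  Nat.card {I : (Ideal (𝓞 K))⁰ //
    (Ideal.absNorm (I : Ideal (𝓞 K)) : ℝ) ≤ x ∧ ClassGroup.mk0 I = C}

/-- **(P3)** `#{I ∈ C : N(I) ≤ x} = κ x + O(x ^ (1 - 1/d))`, with `κ` independent of the class. -/
def ClassCountStatement : Prop :=
  ∀ (K : Type) [Field K] [NumberField K], ∃ κ B : ℝ, ∀ (C : ClassGroup (𝓞 K)) (x : ℝ), 1 ≤ x →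
    |(classCount K C x : ℝ) - κ * x| ≤ B * x ^ (1 - 1 / (Module.finrank ℚ K : ℝ))

/-! ## P4: `L(s, f)` is bounded near `s = 1` when `∑ f = 0` -/

/-- The class of an ideal (junk value `1` at `⊥`). -/
noncomputable def classOf (K : Type*) [Field K] [NumberField K] (I : Ideal (𝓞 K)) :
    ClassGroup (𝓞 K) :=
  open scoped Classical in
  if h : I = ⊥ then 1 else ClassGroup.mk0 ⟨I, mem_nonZeroDivisors_of_ne_zero h⟩

/-- The weight `f([I]) N(I)^(-s)` (zero at `I = ⊥`). -/
noncomputable def twWeight (K : Type*) [Field K] [NumberField K] (f : ClassGroup (𝓞 K) → ℂ)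
    (s : ℝ) (I : Ideal (𝓞 K)) : ℂ :=
  f (classOf K I) * (FrobDensity.normWeight K s I : ℂ)

/-- `L(s, f) = ∑_I f([I]) N(I)^(-s)` for real `s`. -/
noncomputable def LVal (K : Type*) [Field K] [NumberField K] (f : ClassGroup (𝓞 K) → ℂ)
    (s : ℝ) : ℂ :=
  ∑' I : Ideal (𝓞 K), twWeight K f s I

/-- **(P4)** If `∑_c f(c) = 0` then `L(s, f)` is bounded on `(1, 2]`. -/
def LBoundStatement : Prop :=
  ∀ (K : Type) [Field K] [NumberField K] (f : ClassGroup (𝓞 K) → ℂ), ∑ c, f c = 0 →
    ∃ B : ℝ, ∀ s : ℝ, 1 < s → s ≤ 2 → ‖LVal K f s‖ ≤ B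

/-! ## P5: Euler product for `L(s, χ)`, sieve form -/

/-- **(P5)** For a character `χ` of the class group and a finite set `T` of primes:
`‖L(s,χ)‖ * ∏_{𝔭 ∈ T} ‖1 - χ(𝔭) N𝔭^(-s)‖ ≥ 1 - (sieveSum T - 1)`, where `sieveSum T` is the sum of
`N(I)^(-s)` over the ideals prime to `T` (which tends to `1`, `FrobDensity.tendsto_sieveSum`). -/
def EulerCharStatement : Prop :=
  ∀ (K : Type) [Field K] [NumberField K] (χ : ClassGroup (𝓞 K) →* ℂˣ) (s : ℝ), 1 < s →
    ∀ T : Finset (HeightOneSpectrum (𝓞 K)),
      2 - FrobDensity.sieveSum (FrobDensity.normWeight K s) T ≤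
        ‖LVal K (fun c => (χ c : ℂ)) s‖ *
          ∏ 𝔭 ∈ T, ‖1 - twWeight K (fun c => (χ c : ℂ)) s 𝔭.asIdeal‖

/-! ## P6: characters of a finite abelian group -/

/-- **(P6)** For a finite abelian group `G`, `g : G` and `0 ≤ x < 1`:
`∏_χ ‖1 - χ(g) x‖ ≤ 1`, with value `(1 - x) ^ |G|` when `g = 1`.
(`log ‖1 - z‖⁻¹ = Re ∑ z^k / k` and `∑_χ χ(g^k) ∈ {0, |G|}`.) -/
def CharProdStatement : Prop :=
  ∀ (G : Type) [CommGroup G] [Fintype G] [Fintype (G →* ℂˣ)] (g : G) (x : ℝ), 0 ≤ x → x < 1 →
    (∏ χ : G →* ℂˣ, ‖1 - (χ g : ℂ) * (x : ℂ)‖) ≤ 1 ∧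
      (g = 1 → (∏ χ : G →* ℂˣ, ‖1 - (χ g : ℂ) * (x : ℂ)‖) = (1 - x) ^ Fintype.card G)

/-! ## P7: primes whose class is a norm class -/

/-- **(P7)** For a finite extension `M/E` of number fields of degree `n`, the primes `𝔮` of `E`
whose class is a norm class (e.g. those with a prime of residue degree one above them) satisfy
`∑ N𝔮^(-s) ≥ (1/n) log (1/(s-1)) - B` for `s` close to `1`. -/
def NormClassPrimeSumStatement : Prop :=
  ∀ (E M : Type) [Field E] [NumberField E] [Field M] [NumberField M] [Algebra E M],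
    ∃ B δ : ℝ, 0 < δ ∧ ∀ s : ℝ, 1 < s → s < 1 + δ →
      (1 / (Module.finrank E M : ℝ)) * Real.log (1 / (s - 1)) - B ≤
        ∑' 𝔮 : HeightOneSpectrum (𝓞 E),
          open scoped Classical in
          if classOf E 𝔮.asIdeal ∈ S14.normClasses E M then
            FrobDensity.normWeight E s 𝔮.asIdeal else 0

end Fermat.Agent.S14An
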