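import Mathlib
import Fermat.Agent.S14.Analytic.Defs

/-!
# S14, H2 Route II, work package P6: the character product

For a finite abelian group `G`, `g : G` and `0 ≤ x < 1`:
`∏_χ ‖1 - χ(g) x‖ ≤ 1`, with value `(1 - x) ^ |G|` when `g = 1`.

Proof: `-log ‖1 - z‖ = Re ∑_{k ≥ 1} z ^ k / k` for `‖z‖ < 1`, and `Re ∑_χ χ(a) ≥ 0` for every `a`
(the sum is `0` as soon as one character is nontrivial at `a`, and is the number of characters
otherwise).
-/

set_option autoImplicit false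

namespace Fermat.Agent.S14An

/-- The real part of a character sum is nonnegative. -/
lemma H69_re_sum_char_nonneg (G : Type) [CommGroup G] [Fintype (G →* ℂˣ)] (a : G) :
    0 ≤ (∑ χ : G →* ℂˣ, ((χ a : ℂˣ) : ℂ)).re := by
  by_cases h : ∀ χ : G →* ℂˣ, χ a = 1
  · simp [h]
  · push Not at h
    obtain ⟨φ, hφ⟩ := h
    have hsum : (∑ χ : G →* ℂˣ, ((χ a : ℂˣ) : ℂ)) =
        ((φ a : ℂˣ) : ℂ) * ∑ χ : G →* ℂˣ, ((χ a : ℂˣ) : ℂ) := by
      rw [Finset.mul_sum]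
      refine (Fintype.sum_equiv (Equiv.mulLeft φ) _ _ fun χ => ?_).symm
      simp
    have hne : ((φ a : ℂˣ) : ℂ) - 1 ≠ 0 := by
      intro h0
      apply hφ
      ext
      simpa [sub_eq_zero] using h0
    have h0 : (∑ χ : G →* ℂˣ, ((χ a : ℂˣ) : ℂ)) = 0 := by
      have : (((φ a : ℂˣ) : ℂ) - 1) * ∑ χ : G →* ℂˣ, ((χ a : ℂˣ) : ℂ) = 0 := by
        rw [sub_mul, one_mul, ← hsum, sub_self]
      rcases mul_eq_zero.mp this with h1 | h1
      · exact absurd h1 hne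
      · exact h1
    simp [h0]

/-- **(P6)** the character product. -/
theorem charProd : CharProdStatement := by
  intro G _ _ _ g x hx0 hx1
  have hnorm : ∀ χ : G →* ℂˣ, ‖((χ g : ℂˣ) : ℂ)‖ = 1 := by
    intro χ
    have hfin : ((χ g : ℂˣ) : ℂ) ^ (orderOf g) = 1 := by
      rw [← Units.val_pow_eq_pow_val, ← map_pow, pow_orderOf_eq_one, map_one, Units.val_one]
    exact Complex.norm_eq_one_of_pow_eq_one hfin (orderOf_pos g).ne'
  have hz : ∀ χ : G →* ℂˣ, ‖((χ g : ℂˣ) : ℂ) * (x : ℂ)‖ < 1 := by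
    intro χ
    rw [norm_mul, hnorm, one_mul, Complex.norm_real, Real.norm_of_nonneg hx0]
    exact hx1
  have hne : ∀ χ : G →* ℂˣ, 1 - ((χ g : ℂˣ) : ℂ) * (x : ℂ) ≠ 0 := by
    intro χ h
    have h1 := hz χ
    rw [sub_eq_zero] at h
    rw [← h] at h1
    simp at h1
  have hpos : ∀ χ : G →* ℂˣ, 0 < ‖1 - ((χ g : ℂˣ) : ℂ) * (x : ℂ)‖ :=
    fun χ => norm_pos_iff.mpr (hne χ)
  constructor
  · have hS : HasSum (fun n : ℕ => ∑ χ : G →* ℂˣ, (((χ g : ℂˣ) : ℂ) * (x : ℂ)) ^ n / n)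
        (∑ χ : G →* ℂˣ, -Complex.log (1 - ((χ g : ℂˣ) : ℂ) * (x : ℂ))) :=
      hasSum_sum fun χ _ => Complex.hasSum_taylorSeries_neg_log (hz χ)
    have hre := Complex.hasSum_re hS
    have hterm : ∀ n : ℕ,
        0 ≤ (∑ χ : G →* ℂˣ, (((χ g : ℂˣ) : ℂ) * (x : ℂ)) ^ n / n).re := by
      intro n
      have h1 : (∑ χ : G →* ℂˣ, (((χ g : ℂˣ) : ℂ) * (x : ℂ)) ^ n / n) =
          ((x ^ n / n : ℝ) : ℂ) * ∑ χ : G →* ℂˣ, ((χ (g ^ n) : ℂˣ) : ℂ) := by
        rw [Finset.mul_sum]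
        refine Finset.sum_congr rfl fun χ _ => ?_
        rw [map_pow]
        push_cast
        ring
      rw [h1, Complex.re_ofReal_mul]
      exact mul_nonneg (by positivity) (H69_re_sum_char_nonneg G (g ^ n))
    have h0 : 0 ≤ (∑ χ : G →* ℂˣ, -Complex.log (1 - ((χ g : ℂˣ) : ℂ) * (x : ℂ))).re :=
      hre.nonneg hterm
    have hlog : (∑ χ : G →* ℂˣ, -Complex.log (1 - ((χ g : ℂˣ) : ℂ) * (x : ℂ))).re =
        - Real.log (∏ χ : G →* ℂˣ, ‖1 - ((χ g : ℂˣ) : ℂ) * (x : ℂ)‖) := by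
      rw [Real.log_prod (fun χ _ => (hpos χ).ne'), Complex.re_sum, ← Finset.sum_neg_distrib]
      refine Finset.sum_congr rfl fun χ _ => ?_
      rw [Complex.neg_re, Complex.log_re]
    rw [hlog] at h0
    have hprodpos : 0 < ∏ χ : G →* ℂˣ, ‖1 - ((χ g : ℂˣ) : ℂ) * (x : ℂ)‖ :=
      Finset.prod_pos fun χ _ => hpos χ
    have h2 : Real.log (∏ χ : G →* ℂˣ, ‖1 - ((χ g : ℂˣ) : ℂ) * (x : ℂ)‖) ≤ 0 := by linarith
    exact (Real.log_nonpos_iff hprodpos.le).mp h2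
  · rintro rfl
    simp only [map_one, Units.val_one, one_mul]
    have h1 : ‖(1 : ℂ) - (x : ℂ)‖ = 1 - x := by
      rw [← Complex.ofReal_one, ← Complex.ofReal_sub, Complex.norm_real,
        Real.norm_of_nonneg (by linarith)]
    rw [Finset.prod_const, h1, Finset.card_univ]
    congr 1
    rw [Fintype.card_eq_nat_card, Fintype.card_eq_nat_card]
    exact CommGroup.card_monoidHom_of_hasEnoughRootsOfUnity G ℂ

end Fermat.Agent.S14An
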