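import Mathlib
import Fermat.Agent.S14.Analytic.Defs

/-!
# S14 / H2 Route II, work package P5: the Euler product of `L(s, χ)` in sieve form (helper59)
-/

set_option autoImplicit false

open NumberField Filter Topology IsDedekindDomain
open scoped nonZeroDivisors Pointwise

namespace Fermat.Agent.S14An

open Fermat.Agent.FrobDensity

section Sieve

variable {R : Type*} [CommRing R] [IsDedekindDomain R]

/-- The sieved sum of a complex weight. -/
noncomputable def csieveSum (w : Ideal R → ℂ) (T : Finset (HeightOneSpectrum R)) : ℂ :=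
  ∑' I : Ideal R, (sieveSet T).indicator w I

variable {w : Ideal R → ℂ}

lemma csieveSum_insert [DecidableEq (HeightOneSpectrum R)]
    (hmul : ∀ I J, w (I * J) = w I * w J) (hsum : Summable w)
    (T : Finset (HeightOneSpectrum R)) (𝔭 : HeightOneSpectrum R) (h𝔭 : 𝔭 ∉ T) :
    csieveSum w (insert 𝔭 T) = (1 - w 𝔭.asIdeal) * csieveSum w T := by
  have hinj : Function.Injective (fun J : Ideal R => 𝔭.asIdeal * J) :=
    mul_right_injective₀ 𝔭.ne_bot
  have h1 : csieveSum w T = csieveSum w (insert 𝔭 T) +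
      ∑' I : Ideal R, ((fun J => 𝔭.asIdeal * J) '' sieveSet T).indicator w I := by
    unfold csieveSum
    rw [← Summable.tsum_add (hsum.indicator _) (hsum.indicator _)]
    congr 1
    ext I
    conv_lhs => rw [sieveSet_eq_union T 𝔭 h𝔭]
    exact congrFun (Set.indicator_union_of_disjoint (sieveSet_disjoint T 𝔭) w) I
  have h2 : ∑' I : Ideal R, ((fun J => 𝔭.asIdeal * J) '' sieveSet T).indicator w I
      = w 𝔭.asIdeal * csieveSum w T := by
    unfold csieveSum
    rw [← tsum_subtype, tsum_image w hinj.injOn, ← tsum_subtype, ← tsum_mul_left]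
    congr 1
    ext J
    exact hmul _ _
  rw [h2] at h1
  linear_combination -h1

omit [IsDedekindDomain R] in
lemma csieveSum_empty (hbot : w ⊥ = 0) : csieveSum w ∅ = ∑' I, w I := by
  unfold csieveSum
  congr 1
  ext I
  by_cases hI : I = ⊥
  · subst hI
    simp [sieveSet, hbot]
  · rw [Set.indicator_of_mem]
    exact ⟨hI, by simp⟩

lemma csieveSum_eq_prod [DecidableEq (HeightOneSpectrum R)]
    (hmul : ∀ I J, w (I * J) = w I * w J) (hbot : w ⊥ = 0) (hsum : Summable w)
    (T : Finset (HeightOneSpectrum R)) :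
    csieveSum w T = (∏ 𝔭 ∈ T, (1 - w 𝔭.asIdeal)) * ∑' I, w I := by
  induction T using Finset.induction_on with
  | empty => simp [csieveSum_empty hbot]
  | insert 𝔭 T h𝔭 ih =>
    rw [csieveSum_insert hmul hsum T 𝔭 h𝔭, ih, Finset.prod_insert h𝔭]
    ring

/-- The sieved sum is `1` up to the real sieved sum of the norms minus one. -/
lemma two_sub_sieveSum_le_norm_csieveSum (htop : w ⊤ = 1)
    (hsum : Summable fun I => ‖w I‖) (T : Finset (HeightOneSpectrum R)) :
    2 - sieveSum (fun I => ‖w I‖) T ≤ ‖csieveSum w T‖ := by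
  classical
  have hsumw : Summable w := hsum.of_norm
  -- split off the unit ideal
  set A : Set (Ideal R) := sieveSet T \ {⊤} with hA
  have hsplit : ∀ (f : Ideal R → ℂ), (sieveSet T).indicator f =
      fun I => ({⊤} : Set (Ideal R)).indicator f I + A.indicator f I := by
    intro f
    have hunion : sieveSet T = {⊤} ∪ A := by
      rw [hA, Set.union_sdiff_self, Set.union_eq_self_of_subset_left]
      exact Set.singleton_subset_iff.mpr (top_mem_sieveSet T)
    have hdisj : Disjoint ({⊤} : Set (Ideal R)) A := by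
      rw [hA]
      exact Set.disjoint_sdiff_right
    conv_lhs => rw [hunion]
    exact Set.indicator_union_of_disjoint hdisj f
  have hsplitR : ∀ (f : Ideal R → ℝ), (sieveSet T).indicator f =
      fun I => ({⊤} : Set (Ideal R)).indicator f I + A.indicator f I := by
    intro f
    have hunion : sieveSet T = {⊤} ∪ A := by
      rw [hA, Set.union_sdiff_self, Set.union_eq_self_of_subset_left]
      exact Set.singleton_subset_iff.mpr (top_mem_sieveSet T)
    have hdisj : Disjoint ({⊤} : Set (Ideal R)) A := by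
      rw [hA]
      exact Set.disjoint_sdiff_right
    conv_lhs => rw [hunion]
    exact Set.indicator_union_of_disjoint hdisj f
  have e1 : csieveSum w T = 1 + ∑' I, A.indicator w I := by
    unfold csieveSum
    rw [hsplit w, Summable.tsum_add (hsumw.indicator _) (hsumw.indicator _),
      ← tsum_subtype ({⊤} : Set (Ideal R)) w, tsum_singleton (⊤ : Ideal R) w, htop]
  have e2 : sieveSum (fun I => ‖w I‖) T = 1 + ∑' I, A.indicator (fun I => ‖w I‖) I := by
    unfold sieveSum
    rw [hsplitR (fun I => ‖w I‖), Summable.tsum_add (hsum.indicator _) (hsum.indicator _),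
      ← tsum_subtype ({⊤} : Set (Ideal R)) (fun I => ‖w I‖),
      tsum_singleton (⊤ : Ideal R) (fun I => ‖w I‖), htop, norm_one]
  have e3 : ‖∑' I, A.indicator w I‖ ≤ ∑' I, A.indicator (fun I => ‖w I‖) I := by
    have hn : ∀ I, ‖A.indicator w I‖ = A.indicator (fun I => ‖w I‖) I := by
      intro I
      by_cases hI : I ∈ A
      · rw [Set.indicator_of_mem hI, Set.indicator_of_mem hI]
      · rw [Set.indicator_of_notMem hI, Set.indicator_of_notMem hI, norm_zero]
    have hs : Summable fun I => ‖A.indicator w I‖ := by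
      simp_rw [hn]
      exact hsum.indicator _
    calc ‖∑' I, A.indicator w I‖ ≤ ∑' I, ‖A.indicator w I‖ := norm_tsum_le_tsum_norm hs
      _ = ∑' I, A.indicator (fun I => ‖w I‖) I := tsum_congr hn
  rw [e1, e2]
  have h4 : ‖(1 : ℂ)‖ - ‖∑' I, A.indicator w I‖ ≤ ‖1 + ∑' I, A.indicator w I‖ := by
    have := norm_sub_norm_le (1 : ℂ) (-(∑' I, A.indicator w I))
    rwa [norm_neg, sub_neg_eq_add] at this
  rw [norm_one] at h4
  linarith

end Sieve

section NumberField

variable {K : Type} [Field K] [NumberField K]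

lemma norm_char_eq_one (χ : ClassGroup (𝓞 K) →* ℂˣ) (c : ClassGroup (𝓞 K)) :
    ‖(χ c : ℂ)‖ = 1 := by
  have h : (χ c : ℂ) ^ Fintype.card (ClassGroup (𝓞 K)) = 1 := by
    rw [← Units.val_pow_eq_pow_val, ← map_pow, pow_card_eq_one, map_one, Units.val_one]
  exact Complex.norm_eq_one_of_pow_eq_one h Fintype.card_ne_zero

lemma classOf_mul {I J : Ideal (𝓞 K)} (hI : I ≠ ⊥) (hJ : J ≠ ⊥) :
    classOf K (I * J) = classOf K I * classOf K J := by
  have hIJ : I * J ≠ ⊥ := mul_ne_zero hI hJ
  unfold classOf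
  rw [dif_neg hI, dif_neg hJ, dif_neg hIJ, ← map_mul]
  rfl

lemma norm_twWeight (χ : ClassGroup (𝓞 K) →* ℂˣ) (s : ℝ) (I : Ideal (𝓞 K)) :
    ‖twWeight K (fun c => (χ c : ℂ)) s I‖ = normWeight K s I := by
  unfold twWeight
  rw [norm_mul, norm_char_eq_one, one_mul, Complex.norm_real, Real.norm_eq_abs,
    abs_of_nonneg (normWeight_nonneg s I)]

lemma twWeight_mul (χ : ClassGroup (𝓞 K) →* ℂˣ) {s : ℝ} (hs : s ≠ 0) (I J : Ideal (𝓞 K)) :
    twWeight K (fun c => (χ c : ℂ)) s (I * J) =
      twWeight K (fun c => (χ c : ℂ)) s I * twWeight K (fun c => (χ c : ℂ)) s J := by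
  by_cases hI : I = ⊥
  · subst hI
    simp [twWeight, normWeight_bot hs]
  by_cases hJ : J = ⊥
  · subst hJ
    simp [twWeight, normWeight_bot hs]
  unfold twWeight
  simp only
  rw [classOf_mul hI hJ, map_mul, Units.val_mul, normWeight_mul, Complex.ofReal_mul]
  ring

lemma twWeight_top (χ : ClassGroup (𝓞 K) →* ℂˣ) (s : ℝ) :
    twWeight K (fun c => (χ c : ℂ)) s ⊤ = 1 := by
  have h1 : classOf K (⊤ : Ideal (𝓞 K)) = 1 := by
    unfold classOf
    rw [dif_neg top_ne_bot]
    have : (⟨⊤, mem_nonZeroDivisors_of_ne_zero top_ne_bot⟩ : (Ideal (𝓞 K))⁰) = 1 :=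
      Subtype.ext (by simp)
    rw [this, map_one]
  unfold twWeight
  simp only
  rw [h1, map_one, normWeight_top]
  simp

lemma twWeight_bot (χ : ClassGroup (𝓞 K) →* ℂˣ) {s : ℝ} (hs : s ≠ 0) :
    twWeight K (fun c => (χ c : ℂ)) s ⊥ = 0 := by
  simp [twWeight, normWeight_bot hs]

end NumberField

/-- **(P5)** the Euler product of `L(s, χ)` in sieve form. -/
theorem eulerChar : EulerCharStatement := by
  intro K _ _ χ s hs T
  classical
  set w : Ideal (𝓞 K) → ℂ := twWeight K (fun c => (χ c : ℂ)) s with hw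
  have hs0 : s ≠ 0 := by linarith
  have hnorm : (fun I => ‖w I‖) = normWeight K s := funext fun I => norm_twWeight χ s I
  have hsumn : Summable fun I => ‖w I‖ := by
    rw [hnorm]
    exact summable_normWeight K hs
  have hsumw : Summable w := hsumn.of_norm
  have h1 := two_sub_sieveSum_le_norm_csieveSum (w := w) (twWeight_top χ s) hsumn T
  rw [hnorm] at h1
  have h2 := csieveSum_eq_prod (w := w) (twWeight_mul χ hs0) (twWeight_bot χ hs0) hsumw T
  rw [h2, norm_mul, norm_prod, mul_comm] at h1
  exact h1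

end Fermat.Agent.S14An
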