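import Mathlib
import Fermat.Agent.S14.Analytic.Defs

/-!
# S14, H2 Route II, work package P7: primes whose class is a norm class

For a finite extension `M/E` of number fields of degree `n`:
`∑_{𝔮 : [𝔮] is a norm class} N𝔮^(-s) ≥ (1/n) log (1/(s-1)) - B` for `s` close to `1`.

Proof: every prime `𝔔` of `M` lies over `𝔮 = 𝔔 ∩ 𝓞 E`, `N𝔔 = N𝔮 ^ f`, at most `n` primes `𝔔` lie
over a given `𝔮`; if `f = 1` then `relNorm 𝔔 = 𝔮`, so `[𝔮]` is a norm class, if `f ≥ 2` then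
`N𝔔^(-s) ≤ N𝔮^(-2)`.  Hence `primeSum M s ≤ n (∑_{norm classes} N𝔮^(-s) + primeSum E 2)`, and
`primeSum M s = log (1/(s-1)) + O(1)` (helper59's `exists_bound_primeSum_sub_log`).
-/

set_option autoImplicit false

open NumberField Filter Topology IsDedekindDomain
open scoped nonZeroDivisors

namespace Fermat.Agent.S14An

section P7

variable (E M : Type) [Field E] [NumberField E] [Field M] [NumberField M] [Algebra E M]

/-- The relative norm of a prime `𝔔` of `M` is `𝔮 ^ f`, `𝔮` the prime below. -/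
lemma p7_relNorm_prime (𝔔 : HeightOneSpectrum (𝓞 M)) :
    Ideal.relNorm (𝓞 E) 𝔔.asIdeal =
      (𝔔.under (𝓞 E)).asIdeal ^ (𝔔.asIdeal.inertiaDeg (𝓞 E)) := by
  have := 𝔔.isMaximal
  have := (𝔔.under (𝓞 E)).isMaximal
  have : 𝔔.asIdeal.LiesOver (𝔔.under (𝓞 E)).asIdeal := ⟨rfl⟩
  exact Ideal.relNorm_eq_pow_of_isMaximal 𝔔.asIdeal (𝔔.under (𝓞 E)).asIdeal

lemma p7_inertiaDeg_pos (𝔔 : HeightOneSpectrum (𝓞 M)) :
    0 < 𝔔.asIdeal.inertiaDeg (𝓞 E) := by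
  have := 𝔔.isPrime
  exact Ideal.inertiaDeg_pos _ _

/-- `N𝔔 = N𝔮 ^ f`. -/
lemma p7_absNorm_prime (𝔔 : HeightOneSpectrum (𝓞 M)) :
    Ideal.absNorm 𝔔.asIdeal =
      Ideal.absNorm (𝔔.under (𝓞 E)).asIdeal ^ (𝔔.asIdeal.inertiaDeg (𝓞 E)) := by
  rw [← Ideal.absNorm_relNorm (R := 𝓞 E) (I := 𝔔.asIdeal), p7_relNorm_prime, map_pow]

/-- If `f(𝔔 | 𝔮) = 1` then the class of `𝔮` is a norm class. -/
lemma p7_mem_normClasses (𝔔 : HeightOneSpectrum (𝓞 M))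
    (hf : 𝔔.asIdeal.inertiaDeg (𝓞 E) = 1) :
    classOf E (𝔔.under (𝓞 E)).asIdeal ∈ S14.normClasses E M := by
  have hne : (𝔔.under (𝓞 E)).asIdeal ≠ ⊥ := (𝔔.under (𝓞 E)).ne_bot
  refine ⟨⟨𝔔.asIdeal, mem_nonZeroDivisors_of_ne_zero 𝔔.ne_bot⟩,
    ⟨(𝔔.under (𝓞 E)).asIdeal, mem_nonZeroDivisors_of_ne_zero hne⟩, ?_, ?_⟩
  · simp only
    rw [p7_relNorm_prime, hf, pow_one]
  · unfold classOf
    rw [dif_neg hne]

/-- At most `[M : E]` primes of `M` lie over a given prime of `E`. -/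
lemma p7_card_fiber_le (𝔮 : HeightOneSpectrum (𝓞 E)) (T : Finset (HeightOneSpectrum (𝓞 M)))
    (hT : ∀ 𝔔 ∈ T, 𝔔.under (𝓞 E) = 𝔮) : T.card ≤ Module.finrank E M := by
  classical
  have hdvd : ∏ 𝔔 ∈ T, 𝔔.asIdeal ∣ 𝔮.asIdeal.map (algebraMap (𝓞 E) (𝓞 M)) := by
    have := Finset.prod_map T ⟨_, FrobDensity.asIdeal_injective (K := M)⟩
      (fun I : Ideal (𝓞 M) ↦ I)
    simp only [Function.Embedding.coeFn_mk] at this
    rw [← this]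
    refine Finset.prod_primes_dvd _ ?_ ?_
    · intro I hI
      obtain ⟨𝔔, _, rfl⟩ := Finset.mem_map.mp hI
      exact 𝔔.prime
    · intro I hI
      obtain ⟨𝔔, h𝔔, rfl⟩ := Finset.mem_map.mp hI
      simp only [Function.Embedding.coeFn_mk]
      rw [Ideal.dvd_iff_le, Ideal.map_le_iff_le_comap]
      have := hT 𝔔 h𝔔
      rw [← this]
      exact le_rfl
  have hnorm := map_dvd Ideal.absNorm hdvd
  rw [map_prod, Ideal.absNorm_algebraMap,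
    ← IsFractionRing.finrank_eq (𝓞 E) E (𝓞 M) M] at hnorm
  have h2 : 2 ≤ Ideal.absNorm 𝔮.asIdeal := FrobDensity.two_le_absNorm 𝔮
  have hge : ∀ 𝔔 ∈ T, Ideal.absNorm 𝔮.asIdeal ≤ Ideal.absNorm 𝔔.asIdeal := by
    intro 𝔔 h𝔔
    rw [p7_absNorm_prime E M 𝔔, hT 𝔔 h𝔔]
    exact Nat.le_self_pow (p7_inertiaDeg_pos E M 𝔔).ne' _
  have hpos : 0 < Ideal.absNorm 𝔮.asIdeal := by omega
  have hle : Ideal.absNorm 𝔮.asIdeal ^ T.card ≤ Ideal.absNorm 𝔮.asIdeal ^ Module.finrank E M :=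
    calc Ideal.absNorm 𝔮.asIdeal ^ T.card = ∏ _𝔔 ∈ T, Ideal.absNorm 𝔮.asIdeal := by simp
      _ ≤ ∏ 𝔔 ∈ T, Ideal.absNorm 𝔔.asIdeal := Finset.prod_le_prod' hge
      _ ≤ Ideal.absNorm 𝔮.asIdeal ^ Module.finrank E M :=
          Nat.le_of_dvd (pow_pos hpos _) hnorm
  exact (Nat.pow_le_pow_iff_right (by omega)).mp hle

/-- The term of a prime of `M` is bounded by the weight of the prime below plus `N𝔮^(-2)`. -/
lemma p7_term_le (w : HeightOneSpectrum (𝓞 E) → ℝ)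
    {s : ℝ} (hs : 1 ≤ s)
    (hw0 : ∀ 𝔮, 0 ≤ w 𝔮)
    (hwS' : ∀ 𝔮 : HeightOneSpectrum (𝓞 E), classOf E 𝔮.asIdeal ∈ S14.normClasses E M →
      w 𝔮 = FrobDensity.normWeight E s 𝔮.asIdeal)
    (𝔔 : HeightOneSpectrum (𝓞 M)) :
    FrobDensity.normWeight M s 𝔔.asIdeal ≤
      w (𝔔.under (𝓞 E)) + FrobDensity.normWeight E 2 (𝔔.under (𝓞 E)).asIdeal := by
  have hN := p7_absNorm_prime E M 𝔔
  have hfpos := p7_inertiaDeg_pos E M 𝔔
  set f := 𝔔.asIdeal.inertiaDeg (𝓞 E) with hfdef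
  set 𝔮 := 𝔔.under (𝓞 E) with h𝔮
  have hq2 : 2 ≤ Ideal.absNorm 𝔮.asIdeal := FrobDensity.two_le_absNorm 𝔮
  have hq1 : (1 : ℝ) ≤ (Ideal.absNorm 𝔮.asIdeal : ℝ) := by exact_mod_cast (by omega : 1 ≤ _)
  rcases Nat.lt_or_ge f 2 with h1 | h2
  · have hf1 : f = 1 := by omega
    have hmem := p7_mem_normClasses E M 𝔔 hf1
    have : FrobDensity.normWeight M s 𝔔.asIdeal = w 𝔮 := by
      rw [hwS' 𝔮 hmem]
      unfold FrobDensity.normWeight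
      rw [hN, hf1, pow_one]
    rw [this]
    have := FrobDensity.normWeight_nonneg (K := E) 2 𝔮.asIdeal
    linarith
  · have hle : FrobDensity.normWeight M s 𝔔.asIdeal ≤ FrobDensity.normWeight E 2 𝔮.asIdeal := by
      unfold FrobDensity.normWeight
      rw [hN]
      push_cast
      have hpow : (Ideal.absNorm 𝔮.asIdeal : ℝ) ^ 2 ≤ (Ideal.absNorm 𝔮.asIdeal : ℝ) ^ f :=
        pow_le_pow_right₀ hq1 h2
      have hpos2 : (0 : ℝ) < (Ideal.absNorm 𝔮.asIdeal : ℝ) ^ 2 := by positivity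
      have hNf1 : (1 : ℝ) ≤ (Ideal.absNorm 𝔮.asIdeal : ℝ) ^ f := one_le_pow₀ hq1
      calc ((Ideal.absNorm 𝔮.asIdeal : ℝ) ^ f) ^ (-s)
          ≤ ((Ideal.absNorm 𝔮.asIdeal : ℝ) ^ f) ^ (-1 : ℝ) :=
            Real.rpow_le_rpow_of_exponent_le hNf1 (by linarith)
        _ = ((Ideal.absNorm 𝔮.asIdeal : ℝ) ^ f)⁻¹ := Real.rpow_neg_one _
        _ ≤ ((Ideal.absNorm 𝔮.asIdeal : ℝ) ^ 2)⁻¹ := inv_anti₀ hpos2 hpow
        _ = (Ideal.absNorm 𝔮.asIdeal : ℝ) ^ (-2 : ℝ) := by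
            rw [Real.rpow_neg (by linarith), ← Real.rpow_natCast]
            norm_num
    have := hw0 𝔮
    linarith

/-- Finite partial sums of the prime sum of `M` are bounded by `n (∑ w + primeSum E 2)`. -/
lemma p7_finset_sum_le (w : HeightOneSpectrum (𝓞 E) → ℝ) {s : ℝ} (hs : 1 < s)
    (hw0 : ∀ 𝔮, 0 ≤ w 𝔮)
    (hwS' : ∀ 𝔮 : HeightOneSpectrum (𝓞 E), classOf E 𝔮.asIdeal ∈ S14.normClasses E M →
      w 𝔮 = FrobDensity.normWeight E s 𝔮.asIdeal)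
    (hsumw : Summable w) (F : Finset (HeightOneSpectrum (𝓞 M))) :
    ∑ 𝔔 ∈ F, FrobDensity.normWeight M s 𝔔.asIdeal ≤
      (Module.finrank E M : ℝ) * (∑' 𝔮, w 𝔮 + FrobDensity.primeSum E 2) := by
  classical
  set g : HeightOneSpectrum (𝓞 E) → ℝ :=
    fun 𝔮 ↦ w 𝔮 + FrobDensity.normWeight E 2 𝔮.asIdeal with hg
  have hg0 : ∀ 𝔮, 0 ≤ g 𝔮 := fun 𝔮 ↦
    add_nonneg (hw0 𝔮) (FrobDensity.normWeight_nonneg 2 𝔮.asIdeal)
  have hs2 : Summable (fun 𝔮 : HeightOneSpectrum (𝓞 E) ↦ FrobDensity.normWeight E 2 𝔮.asIdeal) :=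
    FrobDensity.summable_normWeight_prime E (by norm_num)
  have hgsum : Summable g := hsumw.add hs2
  calc ∑ 𝔔 ∈ F, FrobDensity.normWeight M s 𝔔.asIdeal
      ≤ ∑ 𝔔 ∈ F, g (𝔔.under (𝓞 E)) :=
        Finset.sum_le_sum fun 𝔔 _ ↦ p7_term_le E M w hs.le hw0 hwS' 𝔔
    _ = ∑ 𝔮 ∈ F.image (fun 𝔔 ↦ 𝔔.under (𝓞 E)),
          (F.filter (fun 𝔔 ↦ 𝔔.under (𝓞 E) = 𝔮)).card • g 𝔮 :=
        Finset.sum_comp g (fun 𝔔 : HeightOneSpectrum (𝓞 M) ↦ 𝔔.under (𝓞 E))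
    _ ≤ ∑ 𝔮 ∈ F.image (fun 𝔔 ↦ 𝔔.under (𝓞 E)), (Module.finrank E M : ℝ) * g 𝔮 := by
        refine Finset.sum_le_sum fun 𝔮 _ ↦ ?_
        rw [nsmul_eq_mul]
        refine mul_le_mul_of_nonneg_right ?_ (hg0 𝔮)
        have := p7_card_fiber_le E M 𝔮 (F.filter (fun 𝔔 ↦ 𝔔.under (𝓞 E) = 𝔮))
          (fun 𝔔 h𝔔 ↦ (Finset.mem_filter.mp h𝔔).2)
        exact_mod_cast this
    _ = (Module.finrank E M : ℝ) * ∑ 𝔮 ∈ F.image (fun 𝔔 ↦ 𝔔.under (𝓞 E)), g 𝔮 := by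
        rw [Finset.mul_sum]
    _ ≤ (Module.finrank E M : ℝ) * ∑' 𝔮, g 𝔮 :=
        mul_le_mul_of_nonneg_left (hgsum.sum_le_tsum _ (fun 𝔮 _ ↦ hg0 𝔮)) (Nat.cast_nonneg _)
    _ = (Module.finrank E M : ℝ) * (∑' 𝔮, w 𝔮 + FrobDensity.primeSum E 2) := by
        rw [hg, hsumw.tsum_add hs2]
        rfl

/-- `primeSum M s ≤ n (∑ w + primeSum E 2)`. -/
lemma p7_primeSum_le (w : HeightOneSpectrum (𝓞 E) → ℝ) {s : ℝ} (hs : 1 < s)
    (hw0 : ∀ 𝔮, 0 ≤ w 𝔮)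
    (hwS' : ∀ 𝔮 : HeightOneSpectrum (𝓞 E), classOf E 𝔮.asIdeal ∈ S14.normClasses E M →
      w 𝔮 = FrobDensity.normWeight E s 𝔮.asIdeal)
    (hsumw : Summable w) :
    FrobDensity.primeSum M s ≤
      (Module.finrank E M : ℝ) * (∑' 𝔮, w 𝔮 + FrobDensity.primeSum E 2) := by
  unfold FrobDensity.primeSum
  exact (FrobDensity.summable_normWeight_prime M hs).tsum_le_of_sum_le
    fun F ↦ p7_finset_sum_le E M w hs hw0 hwS' hsumw F

end P7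

/-- **(P7)** `∑_{𝔮 : [𝔮] norm class} N𝔮^(-s) ≥ (1/n) log (1/(s-1)) - B` for `s` close to `1`. -/
theorem normClassPrimeSum : NormClassPrimeSumStatement := by
  intro E M _ _ _ _ _
  obtain ⟨C, δ, hδ, hC⟩ := FrobDensity.exists_bound_primeSum_sub_log M
  have hn : (0 : ℝ) < (Module.finrank E M : ℝ) := by
    exact_mod_cast (Module.finrank_pos : 0 < Module.finrank E M)
  refine ⟨C / (Module.finrank E M : ℝ) + FrobDensity.primeSum E 2, δ, hδ, fun s hs hsδ ↦ ?_⟩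
  set w : HeightOneSpectrum (𝓞 E) → ℝ := fun 𝔮 ↦
    @ite ℝ (classOf E 𝔮.asIdeal ∈ S14.normClasses E M) (Classical.propDecidable _)
      (FrobDensity.normWeight E s 𝔮.asIdeal) 0 with hw
  have hw0 : ∀ 𝔮, 0 ≤ w 𝔮 := by
    intro 𝔮
    simp only [hw]
    split_ifs
    · exact FrobDensity.normWeight_nonneg s 𝔮.asIdeal
    · exact le_rfl
  have hwle : ∀ 𝔮, w 𝔮 ≤ FrobDensity.normWeight E s 𝔮.asIdeal := by
    intro 𝔮
    simp only [hw]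
    split_ifs
    · exact le_rfl
    · exact FrobDensity.normWeight_nonneg s 𝔮.asIdeal
  have hwS' : ∀ 𝔮 : HeightOneSpectrum (𝓞 E), classOf E 𝔮.asIdeal ∈ S14.normClasses E M →
      w 𝔮 = FrobDensity.normWeight E s 𝔮.asIdeal := by
    intro 𝔮 h
    simp only [hw]
    rw [if_pos h]
  have hsumw : Summable w :=
    Summable.of_nonneg_of_le hw0 hwle (FrobDensity.summable_normWeight_prime E hs)
  have hmain := p7_primeSum_le E M w hs hw0 hwS' hsumw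
  have hlog := hC s hs hsδ
  rw [abs_le] at hlog
  have h1 : Real.log (1 / (s - 1)) - C ≤
      (Module.finrank E M : ℝ) * (∑' 𝔮, w 𝔮 + FrobDensity.primeSum E 2) := by linarith
  have h2 : (1 / (Module.finrank E M : ℝ)) * (Real.log (1 / (s - 1)) - C) ≤
      ∑' 𝔮, w 𝔮 + FrobDensity.primeSum E 2 := by
    rw [one_div, inv_mul_le_iff₀ hn]
    exact h1
  have h3 : (1 / (Module.finrank E M : ℝ)) * Real.log (1 / (s - 1)) -
      (C / (Module.finrank E M : ℝ) + FrobDensity.primeSum E 2) ≤ ∑' 𝔮, w 𝔮 := by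
    have : (1 / (Module.finrank E M : ℝ)) * (Real.log (1 / (s - 1)) - C) =
        (1 / (Module.finrank E M : ℝ)) * Real.log (1 / (s - 1)) -
          C / (Module.finrank E M : ℝ) := by ring
    linarith
  exact h3

end Fermat.Agent.S14An
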