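import Mathlib
import Fermat.Agent.S14.Analytic.Defs

/-!
# S14, H2 Route II, step P8 (assembly): interface

`P8L` (lower bound) + `P8U` (upper bound) ⟹ `P8F` : `Fermat.Agent.S14.SecondIneq`.

For a subgroup `N` of the class group of `E` put `G = Cl_E ⧸ N`, `h = |G| = N.index` and
`LProd E N s = ∏_ψ ‖L(s, ψ)‖`, the product over all characters `ψ : G →* ℂˣ`
(viewed as characters of `Cl_E`).

* **P8L** (from P5 `eulerChar`, P6 `charProd`, P7 `normClassPrimeSum`): if `N` contains the norm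
  classes of `M/E`, then `LProd E N s ≥ c (1/(s-1))^(h/n)` for `s → 1⁺`, `n = [M : E]`.
  (P5 for every `ψ` and a finite set `T` of primes, multiply over `ψ`; by P6 the product over `ψ`
  of the Euler factors at `𝔭` is `≤ 1`, and `= (1 - N𝔭^(-s))^h ≤ exp (-h N𝔭^(-s))` if `[𝔭] ∈ N`;
  let `T` grow: `sieveSum T → 1`; then P7.)
* **P8U** (from P4 `lBound_of`): `LProd E N s ≤ C / (s-1)` on `(1, 2]`.
  (The factor `ψ = 1` is `ζ_E(s) ≤ C₀/(s-1)`; the others are bounded by P4, since a nontrivial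
  character sums to `0`.)
* **P8F**: `c (1/(s-1))^(h/n) ≤ C/(s-1)` near `1` forces `h ≤ n`.
-/

set_option autoImplicit false

open NumberField
open scoped nonZeroDivisors

namespace Fermat.Agent.S14An

/-- The character of the class group attached to a character of `Cl ⧸ N`. -/
noncomputable def liftChar (E : Type) [Field E] [NumberField E]
    (N : Subgroup (ClassGroup (𝓞 E))) (ψ : (ClassGroup (𝓞 E) ⧸ N) →* ℂˣ) :
    ClassGroup (𝓞 E) →* ℂˣ :=
  ψ.comp (QuotientGroup.mk' N)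

/-- `∏_ψ ‖L(s, ψ)‖` over the characters `ψ` of `Cl ⧸ N` (a finite product). -/
noncomputable def LProd (E : Type) [Field E] [NumberField E]
    (N : Subgroup (ClassGroup (𝓞 E))) (s : ℝ) : ℝ :=
  ∏ᶠ ψ : (ClassGroup (𝓞 E) ⧸ N) →* ℂˣ, ‖LVal E (fun c => ((liftChar E N ψ c : ℂˣ) : ℂ)) s‖

/-- **(P8L)** lower bound for `LProd` near `s = 1`. -/
def LProdLowerStatement : Prop :=
  ∀ (E M : Type) [Field E] [NumberField E] [Field M] [NumberField M] [Algebra E M]
    (N : Subgroup (ClassGroup (𝓞 E))), (∀ c ∈ S14.normClasses E M, c ∈ N) →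
    ∃ c δ : ℝ, 0 < c ∧ 0 < δ ∧ ∀ s : ℝ, 1 < s → s < 1 + δ →
      c * (1 / (s - 1)) ^ ((N.index : ℝ) / (Module.finrank E M : ℝ)) ≤ LProd E N s

/-- **(P8U)** upper bound for `LProd` on `(1, 2]`. -/
def LProdUpperStatement : Prop :=
  ∀ (E : Type) [Field E] [NumberField E] (N : Subgroup (ClassGroup (𝓞 E))),
    ∃ C : ℝ, ∀ s : ℝ, 1 < s → s ≤ 2 → LProd E N s ≤ C / (s - 1)

end Fermat.Agent.S14An
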