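import Mathlib
import Fermat.Agent.S14.Analytic.P8Defs
import Fermat.Agent.S14.Analytic.EulerChar
import Fermat.Agent.S14.Analytic.CharProd
import Fermat.Agent.S14.Analytic.NormClassPrimes

/-!
# S14, H2 Route II, step P8L: the lower bound for `∏_ψ ‖L(s, ψ)‖`

`theorem lProdLower : LProdLowerStatement`, from P5 (`eulerChar`), P6 (`charProd`) and
P7 (`normClassPrimeSum`).

For a finite set `T` of primes, P5 for every character `ψ` of `G = Cl ⧸ N`, multiplied over `ψ`: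
`(2 - sieveSum T) ^ |X| ≤ LProd * ∏_{𝔭 ∈ T} ∏_ψ ‖1 - ψ([𝔭]) x_𝔭‖`, `x_𝔭 = N𝔭 ^ (-s)`.
By P6 the inner product is `≤ 1`, and `= (1 - x_𝔭) ^ h ≤ exp (- h x_𝔭)` if `[𝔭] ∈ N`.  Hence
`(2 - sieveSum T) ^ |X| * exp (h * ∑_{𝔭 ∈ T, [𝔭] ∈ N} x_𝔭) ≤ LProd`; let `T` grow and use P7.
-/

set_option autoImplicit false
set_option linter.style.haveILetI false

open NumberField IsDedekindDomain Filter Topology
open scoped nonZeroDivisors

namespace Fermat.Agent.S14An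

/-- `(1 - x) ^ h ≤ exp (- h x)` for `0 ≤ x ≤ 1`. -/
lemma lpl_one_sub_pow_le_exp (h : ℕ) {x : ℝ} (hx1 : x ≤ 1) :
    (1 - x) ^ h ≤ Real.exp (-((h : ℝ) * x)) := by
  have h1 : 1 - x ≤ Real.exp (-x) := by
    have := Real.add_one_le_exp (-x)
    linarith
  calc (1 - x) ^ h ≤ (Real.exp (-x)) ^ h := pow_le_pow_left₀ (by linarith) h1 h
    _ = Real.exp (-((h : ℝ) * x)) := by
        rw [← Real.exp_nat_mul]; congr 1; ring

/-- The key inequality at a finite level `T`. -/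
lemma lpl_finite_level (E : Type) [Field E] [NumberField E]
    (N : Subgroup (ClassGroup (𝓞 E))) {s : ℝ} (hs : 1 < s)
    (T : Finset (HeightOneSpectrum (𝓞 E)))
    (hT : FrobDensity.sieveSum (FrobDensity.normWeight E s) T ≤ 2) :
    (2 - FrobDensity.sieveSum (FrobDensity.normWeight E s) T) ^
        Nat.card ((ClassGroup (𝓞 E) ⧸ N) →* ℂˣ) *
      Real.exp ((N.index : ℝ) * ∑ 𝔭 ∈ T,
        (open scoped Classical in
          if classOf E 𝔭.asIdeal ∈ N then FrobDensity.normWeight E s 𝔭.asIdeal else 0))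
      ≤ LProd E N s := by
  classical
  letI : Fintype (ClassGroup (𝓞 E) ⧸ N) := Fintype.ofFinite _
  letI : Fintype ((ClassGroup (𝓞 E) ⧸ N) →* ℂˣ) := Fintype.ofFinite _
  set x : HeightOneSpectrum (𝓞 E) → ℝ := fun 𝔭 => FrobDensity.normWeight E s 𝔭.asIdeal with hx
  set g : HeightOneSpectrum (𝓞 E) → (ClassGroup (𝓞 E) ⧸ N) :=
    fun 𝔭 => QuotientGroup.mk' N (classOf E 𝔭.asIdeal) with hg
  have hx0 : ∀ 𝔭, 0 ≤ x 𝔭 := fun 𝔭 => FrobDensity.normWeight_nonneg s _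
  have hx1 : ∀ 𝔭, x 𝔭 < 1 := fun 𝔭 => FrobDensity.normWeight_prime_lt_one hs.le 𝔭
  -- the local factor
  set Fac : ((ClassGroup (𝓞 E) ⧸ N) →* ℂˣ) → HeightOneSpectrum (𝓞 E) → ℝ :=
    fun ψ 𝔭 => ‖1 - twWeight E (fun c => ((liftChar E N ψ c : ℂˣ) : ℂ)) s 𝔭.asIdeal‖ with hFac
  have hFac_eq : ∀ ψ 𝔭, Fac ψ 𝔭 = ‖1 - ((ψ (g 𝔭) : ℂˣ) : ℂ) * ((x 𝔭 : ℝ) : ℂ)‖ := by
    intro ψ 𝔭
    rfl
  -- P5 for every ψ
  have hP5 : ∀ ψ : (ClassGroup (𝓞 E) ⧸ N) →* ℂˣ,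
      2 - FrobDensity.sieveSum (FrobDensity.normWeight E s) T ≤
        ‖LVal E (fun c => ((liftChar E N ψ c : ℂˣ) : ℂ)) s‖ * ∏ 𝔭 ∈ T, Fac ψ 𝔭 :=
    fun ψ => eulerChar E (liftChar E N ψ) s hs T
  -- multiply over ψ
  have hprod : (2 - FrobDensity.sieveSum (FrobDensity.normWeight E s) T) ^
        Fintype.card ((ClassGroup (𝓞 E) ⧸ N) →* ℂˣ) ≤
      ∏ ψ : (ClassGroup (𝓞 E) ⧸ N) →* ℂˣ,
        (‖LVal E (fun c => ((liftChar E N ψ c : ℂˣ) : ℂ)) s‖ * ∏ 𝔭 ∈ T, Fac ψ 𝔭) := by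
    rw [← Finset.card_univ, ← Finset.prod_const]
    exact Finset.prod_le_prod (fun ψ _ => by linarith) (fun ψ _ => hP5 ψ)
  rw [Finset.prod_mul_distrib, Finset.prod_comm] at hprod
  -- P6 at every prime
  have hP6 : ∀ 𝔭 : HeightOneSpectrum (𝓞 E),
      ∏ ψ : (ClassGroup (𝓞 E) ⧸ N) →* ℂˣ, Fac ψ 𝔭 ≤
        Real.exp (-((N.index : ℝ) *
          (if classOf E 𝔭.asIdeal ∈ N then x 𝔭 else 0))) := by
    intro 𝔭
    have h6 := charProd (ClassGroup (𝓞 E) ⧸ N) (g 𝔭) (x 𝔭) (hx0 𝔭) (hx1 𝔭)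
    simp only [hFac_eq]
    by_cases hmem : classOf E 𝔭.asIdeal ∈ N
    · have hg1 : g 𝔭 = 1 := by
        simpa [hg] using (QuotientGroup.eq_one_iff (N := N) (classOf E 𝔭.asIdeal)).mpr hmem
      rw [h6.2 hg1, if_pos hmem]
      have hidx : Fintype.card (ClassGroup (𝓞 E) ⧸ N) = N.index := by
        rw [Subgroup.index, Nat.card_eq_fintype_card]
      rw [hidx]
      exact lpl_one_sub_pow_le_exp _ (hx1 𝔭).le
    · rw [if_neg hmem]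
      simpa using h6.1
  have hFac_nonneg : ∀ 𝔭 : HeightOneSpectrum (𝓞 E),
      0 ≤ ∏ ψ : (ClassGroup (𝓞 E) ⧸ N) →* ℂˣ, Fac ψ 𝔭 :=
    fun 𝔭 => Finset.prod_nonneg (fun ψ _ => norm_nonneg _)
  have hLnonneg : 0 ≤ ∏ ψ : (ClassGroup (𝓞 E) ⧸ N) →* ℂˣ,
      ‖LVal E (fun c => ((liftChar E N ψ c : ℂˣ) : ℂ)) s‖ :=
    Finset.prod_nonneg (fun ψ _ => norm_nonneg _)
  have hloc : ∏ 𝔭 ∈ T, ∏ ψ : (ClassGroup (𝓞 E) ⧸ N) →* ℂˣ, Fac ψ 𝔭 ≤
      Real.exp (-((N.index : ℝ) * ∑ 𝔭 ∈ T,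
          (if classOf E 𝔭.asIdeal ∈ N then x 𝔭 else 0))) := by
    calc ∏ 𝔭 ∈ T, ∏ ψ : (ClassGroup (𝓞 E) ⧸ N) →* ℂˣ, Fac ψ 𝔭
        ≤ ∏ 𝔭 ∈ T, Real.exp (-((N.index : ℝ) *
            (if classOf E 𝔭.asIdeal ∈ N then x 𝔭 else 0))) :=
          Finset.prod_le_prod (fun 𝔭 _ => hFac_nonneg 𝔭) (fun 𝔭 _ => hP6 𝔭)
      _ = Real.exp (-((N.index : ℝ) * ∑ 𝔭 ∈ T,
            (if classOf E 𝔭.asIdeal ∈ N then x 𝔭 else 0))) := by
          rw [← Real.exp_sum, Finset.mul_sum, Finset.sum_neg_distrib]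
  have hLP : LProd E N s = ∏ ψ : (ClassGroup (𝓞 E) ⧸ N) →* ℂˣ,
      ‖LVal E (fun c => ((liftChar E N ψ c : ℂˣ) : ℂ)) s‖ := by
    unfold LProd
    exact finprod_eq_prod_of_fintype _
  rw [hLP, Nat.card_eq_fintype_card]
  set S : ℝ := ∑ 𝔭 ∈ T, (if classOf E 𝔭.asIdeal ∈ N then x 𝔭 else 0) with hS
  have h1 : (2 - FrobDensity.sieveSum (FrobDensity.normWeight E s) T) ^
        Fintype.card ((ClassGroup (𝓞 E) ⧸ N) →* ℂˣ) ≤
      (∏ ψ : (ClassGroup (𝓞 E) ⧸ N) →* ℂˣ,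
        ‖LVal E (fun c => ((liftChar E N ψ c : ℂˣ) : ℂ)) s‖) *
        Real.exp (-((N.index : ℝ) * S)) :=
    hprod.trans (mul_le_mul_of_nonneg_left hloc hLnonneg)
  have hexp : Real.exp (-((N.index : ℝ) * S)) * Real.exp ((N.index : ℝ) * S) = 1 := by
    rw [← Real.exp_add]; simp
  calc (2 - FrobDensity.sieveSum (FrobDensity.normWeight E s) T) ^
        Fintype.card ((ClassGroup (𝓞 E) ⧸ N) →* ℂˣ) * Real.exp ((N.index : ℝ) * S)
      ≤ ((∏ ψ : (ClassGroup (𝓞 E) ⧸ N) →* ℂˣ,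
        ‖LVal E (fun c => ((liftChar E N ψ c : ℂˣ) : ℂ)) s‖) *
        Real.exp (-((N.index : ℝ) * S))) * Real.exp ((N.index : ℝ) * S) :=
        mul_le_mul_of_nonneg_right h1 (Real.exp_pos _).le
    _ = ∏ ψ : (ClassGroup (𝓞 E) ⧸ N) →* ℂˣ,
        ‖LVal E (fun c => ((liftChar E N ψ c : ℂˣ) : ℂ)) s‖ := by
        rw [mul_assoc, hexp, mul_one]

/-- **(P8L)** lower bound for `LProd` near `s = 1`. -/
theorem lProdLower : LProdLowerStatement := by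
  intro E M _ _ _ _ _ N hN
  classical
  obtain ⟨B, δ, hδ, hB⟩ := normClassPrimeSum E M
  refine ⟨Real.exp (-((N.index : ℝ) * B)), δ, Real.exp_pos _, hδ, ?_⟩
  intro s hs1 hs2
  have hP7 := hB s hs1 hs2
  set x : HeightOneSpectrum (𝓞 E) → ℝ := fun 𝔭 => FrobDensity.normWeight E s 𝔭.asIdeal with hx
  set fN : HeightOneSpectrum (𝓞 E) → ℝ :=
    fun 𝔭 => if classOf E 𝔭.asIdeal ∈ N then x 𝔭 else 0 with hfN
  set fM : HeightOneSpectrum (𝓞 E) → ℝ :=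
    fun 𝔭 => if classOf E 𝔭.asIdeal ∈ S14.normClasses E M then x 𝔭 else 0 with hfM
  have hx0 : ∀ 𝔭, 0 ≤ x 𝔭 := fun 𝔭 => FrobDensity.normWeight_nonneg s _
  have hsx : Summable x := FrobDensity.summable_normWeight_prime E hs1
  have hfN0 : ∀ 𝔭, 0 ≤ fN 𝔭 := fun 𝔭 => by
    simp only [hfN]; split_ifs
    · exact hx0 𝔭
    · exact le_rfl
  have hfM0 : ∀ 𝔭, 0 ≤ fM 𝔭 := fun 𝔭 => by
    simp only [hfM]; split_ifs
    · exact hx0 𝔭
    · exact le_rfl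
  have hfNx : ∀ 𝔭, fN 𝔭 ≤ x 𝔭 := fun 𝔭 => by
    simp only [hfN]; split_ifs
    · exact le_rfl
    · exact hx0 𝔭
  have hfMN : ∀ 𝔭, fM 𝔭 ≤ fN 𝔭 := fun 𝔭 => by
    simp only [hfM, hfN]
    by_cases h1 : classOf E 𝔭.asIdeal ∈ S14.normClasses E M
    · rw [if_pos h1, if_pos (hN _ h1)]
    · rw [if_neg h1]
      split_ifs
      · exact hx0 𝔭
      · exact le_rfl
  have hsN : Summable fN := Summable.of_nonneg_of_le hfN0 hfNx hsx
  have hsM : Summable fM := Summable.of_nonneg_of_le hfM0 hfMN hsN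
  have hle : ∑' 𝔭, fM 𝔭 ≤ ∑' 𝔭, fN 𝔭 := hsM.tsum_le_tsum hfMN hsN
  have hP7' : (1 / (Module.finrank E M : ℝ)) * Real.log (1 / (s - 1)) - B ≤ ∑' 𝔭, fM 𝔭 := by
    refine hP7.trans (le_of_eq ?_)
    refine tsum_congr fun 𝔭 => ?_
    simp only [hfM, hx]
  -- the limit over `T`
  have hlim1 : Tendsto (FrobDensity.sieveSum (FrobDensity.normWeight E s)) atTop (𝓝 1) :=
    FrobDensity.tendsto_sieveSum (fun I => FrobDensity.normWeight_nonneg s I)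
      (FrobDensity.normWeight_top s) (FrobDensity.summable_normWeight E hs1)
  have hlim2 : Tendsto (fun T : Finset (HeightOneSpectrum (𝓞 E)) => ∑ 𝔭 ∈ T, fN 𝔭) atTop
      (𝓝 (∑' 𝔭, fN 𝔭)) := hsN.hasSum
  have hlim : Tendsto (fun T : Finset (HeightOneSpectrum (𝓞 E)) =>
      (2 - FrobDensity.sieveSum (FrobDensity.normWeight E s) T) ^
        Nat.card ((ClassGroup (𝓞 E) ⧸ N) →* ℂˣ) *
      Real.exp ((N.index : ℝ) * ∑ 𝔭 ∈ T, fN 𝔭)) atTop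
      (𝓝 ((2 - 1) ^ Nat.card ((ClassGroup (𝓞 E) ⧸ N) →* ℂˣ) *
        Real.exp ((N.index : ℝ) * ∑' 𝔭, fN 𝔭))) :=
    ((tendsto_const_nhds.sub hlim1).pow _).mul
      ((Real.continuous_exp.tendsto _).comp (tendsto_const_nhds.mul hlim2))
  have hev : ∀ᶠ T in atTop,
      FrobDensity.sieveSum (FrobDensity.normWeight E s) T ≤ 2 :=
    hlim1.eventually (eventually_le_nhds (by norm_num : (1 : ℝ) < 2))
  have hbound : (2 - 1) ^ Nat.card ((ClassGroup (𝓞 E) ⧸ N) →* ℂˣ) *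
        Real.exp ((N.index : ℝ) * ∑' 𝔭, fN 𝔭) ≤ LProd E N s := by
    refine le_of_tendsto hlim (hev.mono fun T hT => ?_)
    have := lpl_finite_level E N hs1 T hT
    convert this using 4
  have hbound' : Real.exp ((N.index : ℝ) * ∑' 𝔭, fN 𝔭) ≤ LProd E N s := by
    have h21 : ((2 : ℝ) - 1) = 1 := by norm_num
    rwa [h21, one_pow, one_mul] at hbound
  have hpos : 0 < 1 / (s - 1) := by
    apply div_pos one_pos; linarith
  calc Real.exp (-((N.index : ℝ) * B)) *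
        (1 / (s - 1)) ^ ((N.index : ℝ) / (Module.finrank E M : ℝ))
      = Real.exp ((N.index : ℝ) *
          ((1 / (Module.finrank E M : ℝ)) * Real.log (1 / (s - 1)) - B)) := by
        rw [Real.rpow_def_of_pos hpos, ← Real.exp_add]
        congr 1
        ring
    _ ≤ Real.exp ((N.index : ℝ) * ∑' 𝔭, fM 𝔭) :=
        Real.exp_le_exp.mpr (mul_le_mul_of_nonneg_left hP7' (Nat.cast_nonneg _))
    _ ≤ Real.exp ((N.index : ℝ) * ∑' 𝔭, fN 𝔭) :=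
        Real.exp_le_exp.mpr (mul_le_mul_of_nonneg_left hle (Nat.cast_nonneg _))
    _ ≤ LProd E N s := hbound'

end Fermat.Agent.S14An
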