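import Mathlib
import Fermat.Agent.S14.Analytic.P8Defs
import Fermat.Agent.S14.Analytic.EulerChar

/-!
# S14, H2 Route II, step P8U: the upper bound `LProd E N s ≤ C / (s - 1)` (helper70)
-/

set_option autoImplicit false

open NumberField Filter Topology
open scoped nonZeroDivisors

namespace Fermat.Agent.S14An

open Fermat.Agent.FrobDensity

section

variable {K : Type} [Field K] [NumberField K]

lemma p8u_norm_LVal_le_zetaSum (χ : ClassGroup (𝓞 K) →* ℂˣ) {s : ℝ} (hs : 1 < s) :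
    ‖LVal K (fun c => (χ c : ℂ)) s‖ ≤ zetaSum K s := by
  unfold LVal zetaSum
  have hsum : Summable (fun I => ‖twWeight K (fun c => (χ c : ℂ)) s I‖) := by
    simp_rw [norm_twWeight]; exact summable_normWeight K hs
  calc ‖∑' I, twWeight K (fun c => (χ c : ℂ)) s I‖
      ≤ ∑' I, ‖twWeight K (fun c => (χ c : ℂ)) s I‖ := norm_tsum_le_tsum_norm hsum
    _ = ∑' I, normWeight K s I := by simp_rw [norm_twWeight]

lemma p8u_normWeight_anti {s s' : ℝ} (hs : 0 < s) (h : s ≤ s') (I : Ideal (𝓞 K)) :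
    normWeight K s' I ≤ normWeight K s I := by
  unfold normWeight
  rcases Nat.eq_zero_or_pos (Ideal.absNorm I) with h0 | h0
  · rw [h0, Nat.cast_zero, Real.zero_rpow (by linarith), Real.zero_rpow (by linarith)]
  · exact Real.rpow_le_rpow_of_exponent_le (by exact_mod_cast h0) (by linarith)

variable (K) in
lemma p8u_zetaSum_anti {s s' : ℝ} (hs : 1 < s) (h : s ≤ s') : zetaSum K s' ≤ zetaSum K s :=
  (summable_normWeight K (lt_of_lt_of_le hs h)).tsum_le_tsum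
    (fun I => p8u_normWeight_anti (by linarith) h I) (summable_normWeight K hs)

variable (K) in
lemma p8u_exists_zetaSum_le :
    ∃ C₀ : ℝ, 0 ≤ C₀ ∧ ∀ s : ℝ, 1 < s → s ≤ 2 → zetaSum K s ≤ C₀ / (s - 1) := by
  have h := tendsto_sub_one_mul_zetaSum K
  have hev : ∀ᶠ s : ℝ in 𝓝[>] 1, (s - 1) * zetaSum K s < dedekindZeta_residue K + 1 :=
    h.eventually_lt_const (by linarith)
  obtain ⟨u, hu1, hu⟩ := mem_nhdsGT_iff_exists_Ioo_subset.mp hev
  have hu1' : (1 : ℝ) < u := hu1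
  refine ⟨max (dedekindZeta_residue K + 1) (zetaSum K u), ?_, ?_⟩
  · exact le_max_of_le_right (le_trans zero_le_one (one_le_zetaSum K hu1'))
  · intro s hs hs2
    rw [le_div_iff₀ (by linarith), mul_comm]
    by_cases hsu : s < u
    · exact (le_of_lt (hu ⟨hs, hsu⟩)).trans (le_max_left _ _)
    · rw [not_lt] at hsu
      have h1 : zetaSum K s ≤ zetaSum K u := p8u_zetaSum_anti K hu1' hsu
      have h2 : 0 ≤ zetaSum K s := le_trans zero_le_one (one_le_zetaSum K hs)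
      have h3 : (s - 1) * zetaSum K s ≤ 1 * zetaSum K s :=
        mul_le_mul_of_nonneg_right (by linarith) h2
      calc (s - 1) * zetaSum K s ≤ 1 * zetaSum K s := h3
        _ = zetaSum K s := one_mul _
        _ ≤ zetaSum K u := h1
        _ ≤ _ := le_max_right _ _

lemma p8u_sum_liftChar_eq_zero (N : Subgroup (ClassGroup (𝓞 K)))
    (ψ : (ClassGroup (𝓞 K) ⧸ N) →* ℂˣ) (hψ : ψ ≠ 1) :
    ∑ c : ClassGroup (𝓞 K), ((liftChar K N ψ c : ℂˣ) : ℂ) = 0 := by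
  have hne : ((Units.coeHom ℂ).comp (liftChar K N ψ)) ≠ 1 := by
    intro h
    apply hψ
    refine MonoidHom.ext fun g => ?_
    obtain ⟨c, rfl⟩ := QuotientGroup.mk_surjective g
    have := DFunLike.congr_fun h c
    simpa [liftChar] using this
  have := sum_hom_units_eq_zero ((Units.coeHom ℂ).comp (liftChar K N ψ)) hne
  simpa using this

end

/-- **(P8U)** upper bound for `LProd` on `(1, 2]`. -/
theorem lProdUpper_of (h4 : LBoundStatement) : LProdUpperStatement := by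
  intro E _ _ N
  classical
  let _ : Fintype ((ClassGroup (𝓞 E) ⧸ N) →* ℂˣ) := Fintype.ofFinite _
  obtain ⟨C₀, hC₀, hζ⟩ := p8u_exists_zetaSum_le E
  have hB : ∀ ψ : (ClassGroup (𝓞 E) ⧸ N) →* ℂˣ, ∃ B : ℝ, ψ ≠ 1 →
      ∀ s : ℝ, 1 < s → s ≤ 2 → ‖LVal E (fun c => ((liftChar E N ψ c : ℂˣ) : ℂ)) s‖ ≤ B := by
    intro ψ
    by_cases hψ : ψ = 1
    · exact ⟨0, fun h => absurd hψ h⟩
    · obtain ⟨B, hB⟩ := h4 E (fun c => ((liftChar E N ψ c : ℂˣ) : ℂ))
        (p8u_sum_liftChar_eq_zero N ψ hψ)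
      exact ⟨B, fun _ => hB⟩
  choose B hB using hB
  refine ⟨C₀ * ∏ ψ ∈ (Finset.univ : Finset ((ClassGroup (𝓞 E) ⧸ N) →* ℂˣ)).erase 1, B ψ, ?_⟩
  intro s hs hs2
  unfold LProd
  rw [finprod_eq_prod_of_fintype,
    ← Finset.mul_prod_erase Finset.univ _ (Finset.mem_univ (1 : (ClassGroup (𝓞 E) ⧸ N) →* ℂˣ))]
  have h1 : ‖LVal E (fun c => ((liftChar E N 1 c : ℂˣ) : ℂ)) s‖ ≤ C₀ / (s - 1) :=
    (p8u_norm_LVal_le_zetaSum (liftChar E N 1) hs).trans (hζ s hs hs2)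
  have h2 : ∏ ψ ∈ (Finset.univ : Finset ((ClassGroup (𝓞 E) ⧸ N) →* ℂˣ)).erase 1,
        ‖LVal E (fun c => ((liftChar E N ψ c : ℂˣ) : ℂ)) s‖ ≤
      ∏ ψ ∈ (Finset.univ : Finset ((ClassGroup (𝓞 E) ⧸ N) →* ℂˣ)).erase 1, B ψ := by
    refine Finset.prod_le_prod (fun ψ _ => norm_nonneg _) (fun ψ hψ => ?_)
    exact hB ψ (Finset.ne_of_mem_erase hψ) s hs hs2
  have h3 : 0 ≤ ∏ ψ ∈ (Finset.univ : Finset ((ClassGroup (𝓞 E) ⧸ N) →* ℂˣ)).erase 1,
        ‖LVal E (fun c => ((liftChar E N ψ c : ℂˣ) : ℂ)) s‖ :=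
    Finset.prod_nonneg (fun ψ _ => norm_nonneg _)
  have h4' : 0 ≤ C₀ / (s - 1) := div_nonneg hC₀ (by linarith)
  calc _ ≤ C₀ / (s - 1) * ∏ ψ ∈ (Finset.univ : Finset ((ClassGroup (𝓞 E) ⧸ N) →* ℂˣ)).erase 1,
        B ψ := mul_le_mul h1 h2 h3 h4'
    _ = _ := by ring

end Fermat.Agent.S14An
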