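import Mathlib
import Fermat.Agent.S14.Analytic.Defs

/-!
# S14, analytic second inequality, work package P2: the frontier of `normLeOne K`

`theorem normLeOneFrontier : NormLeOneFrontierStatement`:
the frontier of `normLeOne K` is covered by finitely many Lipschitz images of `[0,1]^(d-1)`,
`d = [K : ℚ]`.

Proof.  By Mathlib, `closure (normLeOne K) ⊆ normAtAllPlaces ⁻¹' compactSet K` and
`normAtAllPlaces ⁻¹' (expMapBasis '' interior (paramSet K)) ⊆ interior (normLeOne K)`.
The compact set is the image of the unit cube `[0,1]^(InfinitePlace K)` under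
`nlfCone u = u w₀ • expMapBasis (u with the coordinate at w₀ replaced by 0)`, and the open cube
is mapped into `expMapBasis '' interior (paramSet K)`; hence a point of the frontier has absolute
values `nlfCone u` for some `u` on the boundary of the cube.  Adding a sign at every real place
and an angle at every complex place gives `2 (r₁ + r₂) 2 ^ r₁` charts, each one a `C¹` map defined
on the whole of `ℝ ^ (d - 1)`, hence Lipschitz on the unit cube.
-/

set_option autoImplicit false

open NumberField NumberField.InfinitePlace NumberField.mixedEmbedding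
  NumberField.mixedEmbedding.fundamentalCone NumberField.Units dirichletUnitTheorem

open scoped Classical Pointwise

namespace Fermat.Agent.S14An

/-! ## A general criterion -/

/-- Finitely many `C¹` charts defined on the whole of `ℝ^m` give a Lipschitz cover. -/
theorem nlf_lipCover_of_contDiff {E : Type*} [NormedAddCommGroup E] [NormedSpace ℝ E]
    (m : ℕ) (S : Set E) {𝒥 : Type} [Fintype 𝒥] (φ : 𝒥 → (Fin m → ℝ) → E)
    (hφ : ∀ j, ContDiff ℝ 1 (φ j)) (hS : S ⊆ ⋃ j, φ j '' Set.Icc 0 1) :
    LipCover m S := by
  have hL : ∀ j, ∃ C : NNReal, LipschitzOnWith C (φ j) (Set.Icc 0 1) := fun j =>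
    (hφ j).contDiffOn.exists_lipschitzOnWith one_ne_zero (convex_Icc _ _) isCompact_Icc
  choose C hC using hL
  let e := Fintype.equivFin 𝒥
  refine ⟨Fintype.card 𝒥, fun k => φ (e.symm k), Finset.univ.sup C, ?_, ?_⟩
  · intro k
    exact (hC (e.symm k)).weaken (Finset.le_sup (Finset.mem_univ _))
  · intro x hx
    obtain ⟨j, hj⟩ := Set.mem_iUnion.mp (hS hx)
    refine Set.mem_iUnion.mpr ⟨e j, ?_⟩
    simpa using hj

variable (K : Type) [Field K] [NumberField K]

/-! ## The radial parametrisation of `compactSet K` -/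

/-- Radial parametrisation of `compactSet K` by the unit cube: the coordinate at `w₀` is the
radial factor, the other coordinates are the exponents of the fundamental units. -/
noncomputable def nlfCone (u : realSpace K) : realSpace K :=
  u w₀ • expMapBasis (fun i => if i = w₀ then 0 else u i)

theorem nlf_exists_of_mem_compactSet {x : realSpace K} (hx : x ∈ compactSet K) :
    ∃ u ∈ Set.Icc (0 : realSpace K) 1, nlfCone K u = x := by
  obtain ⟨c, hc, ⟨_, ⟨y, hy, rfl⟩, rfl⟩⟩ := hx
  refine ⟨fun w => if w = w₀ then c else y w, ?_, ?_⟩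
  · rw [← Set.pi_univ_Icc, Set.mem_univ_pi]
    intro w
    have := hy w (Set.mem_univ _)
    by_cases h : w = w₀
    · simpa [h] using hc
    · simpa [h] using this
  · have h0 : y w₀ = 0 := by simpa using hy w₀ (Set.mem_univ _)
    have : (fun i => if i = w₀ then (0 : ℝ) else (if i = w₀ then c else y i)) = y := by
      funext i
      by_cases h : i = w₀
      · simp [h, h0]
      · simp [h]
    simp only [nlfCone, if_true, this]

theorem nlfCone_mem_image_interior {u : realSpace K}
    (hu : ∀ w, 0 < u w ∧ u w < 1) :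
    nlfCone K u ∈ expMapBasis '' interior (paramSet K) := by
  refine ⟨fun w => if w = w₀ then Real.log (u w₀) else u w, ?_, ?_⟩
  · rw [interior_paramSet, Set.mem_univ_pi]
    intro w
    by_cases h : w = w₀
    · simp only [h, if_true, Set.mem_Iio]
      exact Real.log_neg (hu w₀).1 (hu w₀).2
    · simp only [h, if_false, Set.mem_Ioo]
      exact hu w
  · rw [expMapBasis_apply'', if_pos rfl, Real.exp_log (hu w₀).1, nlfCone]
    congr 2
    funext i
    by_cases h : i = w₀ <;> simp [h]

/-- A point of the frontier of `normLeOne K` has absolute values `nlfCone u` with `u` on the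
boundary of the unit cube. -/
theorem nlf_frontier_subset {x : mixedSpace K} (hx : x ∈ frontier (normLeOne K)) :
    ∃ u ∈ Set.Icc (0 : realSpace K) 1, (∃ w, u w = 0 ∨ u w = 1) ∧
      normAtAllPlaces x = nlfCone K u := by
  have h1 : x ∈ closure (normLeOne K) := hx.1
  have h2 : x ∉ interior (normLeOne K) := hx.2
  obtain ⟨u, hu, hux⟩ := nlf_exists_of_mem_compactSet K (closure_normLeOne_subset K h1)
  refine ⟨u, hu, ?_, hux.symm⟩
  by_contra hcon
  push Not at hcon
  apply h2
  apply subset_interior_normLeOne K
  rw [Set.mem_preimage, ← hux]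
  apply nlfCone_mem_image_interior
  intro w
  have hw := hu
  rw [← Set.pi_univ_Icc, Set.mem_univ_pi] at hw
  have := hw w
  simp only [Pi.zero_apply, Pi.one_apply, Set.mem_Icc] at this
  exact ⟨lt_of_le_of_ne this.1 (Ne.symm (hcon w).1), lt_of_le_of_ne this.2 (hcon w).2⟩

/-! ## Smoothness -/

theorem nlf_contDiff_expMap : ContDiff ℝ 1 (fun x : realSpace K => (expMap x : realSpace K)) := by
  rw [contDiff_pi]
  intro w
  have : (fun x : realSpace K => (expMap x : realSpace K) w)
      = fun x : realSpace K => Real.exp ((↑w.mult)⁻¹ * x w) := by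
    funext x; exact expMap_apply x w
  rw [this]
  exact Real.contDiff_exp.comp (contDiff_const.mul (contDiff_apply ℝ ℝ w))

theorem nlf_contDiff_expMapBasis :
    ContDiff ℝ 1 (fun x : realSpace K => (expMapBasis x : realSpace K)) := by
  have : (fun x : realSpace K => (expMapBasis x : realSpace K))
      = (fun x : realSpace K => (expMap x : realSpace K)) ∘
          (fun x => (completeBasis K).equivFunL.symm x) := by
    funext x; rfl
  rw [this]
  exact (nlf_contDiff_expMap K).comp (ContinuousLinearEquiv.contDiff _)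

theorem nlf_contDiff_cone : ContDiff ℝ 1 (nlfCone K) := by
  unfold nlfCone
  apply ContDiff.smul (contDiff_apply ℝ ℝ w₀)
  apply (nlf_contDiff_expMapBasis K).comp
  rw [contDiff_pi]
  intro i
  by_cases h : i = w₀
  · simp only [h, if_true]; exact contDiff_const
  · simp only [h, if_false]; exact contDiff_apply ℝ ℝ i

/-! ## The charts -/

/-- The index type of the parameters: one radial/unit-exponent coordinate for each infinite place
and one angle for each complex place. -/
abbrev NlfIdx : Type := InfinitePlace K ⊕ {w : InfinitePlace K // IsComplex w}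

/-- The full chart: signs at the real places, angles at the complex places. -/
noncomputable def nlfChart (ε : {w : InfinitePlace K // IsReal w} → Bool)
    (p : NlfIdx K → ℝ) : mixedSpace K :=
  (fun v => (if ε v then (1 : ℝ) else -1) * nlfCone K (fun i => p (Sum.inl i)) v.1,
   fun v => ((nlfCone K (fun i => p (Sum.inl i)) v.1 : ℝ) : ℂ) *
      Complex.exp (((2 * Real.pi * p (Sum.inr v) - Real.pi : ℝ) : ℂ) * Complex.I))

theorem nlf_contDiff_chart (ε : {w : InfinitePlace K // IsReal w} → Bool) :
    ContDiff ℝ 1 (nlfChart K ε) := by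
  have hc : ContDiff ℝ 1 (fun p : NlfIdx K → ℝ => nlfCone K (fun i => p (Sum.inl i))) := by
    apply (nlf_contDiff_cone K).comp
    rw [contDiff_pi]
    intro i
    exact contDiff_apply ℝ ℝ (Sum.inl i)
  have hcw : ∀ w : InfinitePlace K,
      ContDiff ℝ 1 (fun p : NlfIdx K → ℝ => nlfCone K (fun i => p (Sum.inl i)) w) := by
    intro w
    exact (contDiff_apply ℝ ℝ w).comp hc
  unfold nlfChart
  apply ContDiff.prodMk
  · rw [contDiff_pi]
    intro v
    exact contDiff_const.mul (hcw v.1)
  · rw [contDiff_pi]
    intro v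
    apply ContDiff.mul
    · exact Complex.ofRealCLM.contDiff.comp (hcw v.1)
    · apply Complex.contDiff_exp.comp
      apply ContDiff.mul _ contDiff_const
      apply Complex.ofRealCLM.contDiff.comp
      exact (contDiff_const.mul (contDiff_apply ℝ ℝ (Sum.inr v))).sub contDiff_const

/-- Every `x` whose vector of absolute values is `nlfCone u` is in the image of a chart. -/
theorem nlf_exists_chart {x : mixedSpace K} {u : realSpace K}
    (hx : normAtAllPlaces x = nlfCone K u) :
    ∃ (ε : {w : InfinitePlace K // IsReal w} → Bool)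
      (θ : {w : InfinitePlace K // IsComplex w} → ℝ),
      (∀ v, 0 ≤ θ v ∧ θ v ≤ 1) ∧ nlfChart K ε (Sum.elim u θ) = x := by
  refine ⟨fun v => decide (0 ≤ x.1 v), fun v => (Complex.arg (x.2 v) + Real.pi) / (2 * Real.pi),
    ?_, ?_⟩
  · intro v
    have h1 := Complex.neg_pi_lt_arg (x.2 v)
    have h2 := Complex.arg_le_pi (x.2 v)
    have hpi := Real.pi_pos
    constructor
    · apply div_nonneg <;> linarith
    · rw [div_le_one (by linarith)]; linarith
  · have hcone : ∀ w, nlfCone K (fun i => (Sum.elim u
        (fun v => (Complex.arg (x.2 v) + Real.pi) / (2 * Real.pi)) : NlfIdx K → ℝ) (Sum.inl i)) w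
        = normAtPlace w x := by
      intro w
      simp only [Sum.elim_inl]
      rw [← hx, normAtAllPlaces_apply]
    refine Prod.ext ?_ ?_
    · funext v
      simp only [nlfChart]
      rw [hcone, normAtPlace_apply_of_isReal v.2]
      simp only [decide_eq_true_eq, Real.norm_eq_abs]
      by_cases h : 0 ≤ x.1 v
      · simp only [h, if_true, one_mul]; exact abs_of_nonneg h
      · simp only [h, if_false]
        rw [abs_of_neg (not_le.mp h)]; ring
    · funext v
      simp only [nlfChart]
      rw [hcone, normAtPlace_apply_of_isComplex v.2]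
      simp only [Sum.elim_inr]
      have hpi : (2 * Real.pi) ≠ 0 := by positivity
      have : 2 * Real.pi * ((Complex.arg (x.2 v) + Real.pi) / (2 * Real.pi)) - Real.pi
          = Complex.arg (x.2 v) := by
        field_simp; ring
      rw [this]
      exact Complex.norm_mul_exp_arg_mul_I _

/-! ## The faces of the cube -/

theorem nlf_card_idx : Nat.card (NlfIdx K) = Module.finrank ℚ K := by
  rw [Nat.card_sum, Nat.card_eq_fintype_card, Nat.card_eq_fintype_card,
    card_eq_nrRealPlaces_add_nrComplexPlaces, ← card_add_two_mul_card_eq_rank]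
  simp only [nrComplexPlaces]
  ring

theorem nlf_card_face (w : InfinitePlace K) (m : ℕ) (hm : m + 1 = Module.finrank ℚ K) :
    Nat.card {i : NlfIdx K // i ≠ Sum.inl w} = m := by
  have h1 : Nat.card {i : NlfIdx K // i ≠ Sum.inl w} = Nat.card (NlfIdx K) - 1 := by
    rw [Nat.card_eq_fintype_card, Nat.card_eq_fintype_card]
    rw [Fintype.card_subtype_compl, Fintype.card_subtype_eq]
  rw [h1, nlf_card_idx, ← hm]
  rfl

/-- Inserting the constant `b` at the coordinate `w`. -/
noncomputable def nlfIns {m : ℕ} (w : InfinitePlace K)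
    (e : {i : NlfIdx K // i ≠ Sum.inl w} ≃ Fin m) (b : ℝ) (q : Fin m → ℝ) : NlfIdx K → ℝ :=
  fun i => if h : i = Sum.inl w then b else q (e ⟨i, h⟩)

theorem nlf_contDiff_ins {m : ℕ} (w : InfinitePlace K)
    (e : {i : NlfIdx K // i ≠ Sum.inl w} ≃ Fin m) (b : ℝ) :
    ContDiff ℝ 1 (nlfIns K w e b) := by
  rw [contDiff_pi]
  intro i
  unfold nlfIns
  by_cases h : i = Sum.inl w
  · simp only [h, dif_pos]; exact contDiff_const
  · simp only [h, dif_neg, not_false_eq_true]; exact contDiff_apply ℝ ℝ _

omit [NumberField K] in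
theorem nlf_ins_surj {m : ℕ} (w : InfinitePlace K)
    (e : {i : NlfIdx K // i ≠ Sum.inl w} ≃ Fin m) (b : ℝ) (p : NlfIdx K → ℝ)
    (hp : ∀ i, 0 ≤ p i ∧ p i ≤ 1) (hb : p (Sum.inl w) = b) :
    ∃ q ∈ Set.Icc (0 : Fin m → ℝ) 1, nlfIns K w e b q = p := by
  refine ⟨fun k => p (e.symm k).1, ?_, ?_⟩
  · rw [← Set.pi_univ_Icc, Set.mem_univ_pi]
    intro k
    exact hp _
  · funext i
    unfold nlfIns
    by_cases h : i = Sum.inl w
    · simp only [h, dif_pos]; exact hb.symm
    · simp only [h, dif_neg, not_false_eq_true, Equiv.symm_apply_apply]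

/-! ## The theorem -/

/-- The frontier of `normLeOne K` is covered by finitely many Lipschitz images of the unit cube
of dimension `[K : ℚ] - 1`. -/
theorem nlf_lipCover_frontier (m : ℕ) (hm : m + 1 = Module.finrank ℚ K) :
    LipCover m (frontier (normLeOne K)) := by
  -- the equivalences between the faces and `Fin m`
  have he : ∀ w : InfinitePlace K, Nonempty ({i : NlfIdx K // i ≠ Sum.inl w} ≃ Fin m) :=
    fun w => ⟨Finite.equivFinOfCardEq (nlf_card_face K w m hm)⟩
  choose e _ using fun w => (he w).elim (fun e => (⟨e, trivial⟩ : ∃ _e :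
    {i : NlfIdx K // i ≠ Sum.inl w} ≃ Fin m, True))
  refine nlf_lipCover_of_contDiff m _
    (𝒥 := InfinitePlace K × Bool × ({w : InfinitePlace K // IsReal w} → Bool))
    (fun j q => nlfChart K j.2.2 (nlfIns K j.1 (e j.1) (if j.2.1 then 1 else 0) q)) ?_ ?_
  · intro j
    exact (nlf_contDiff_chart K j.2.2).comp (nlf_contDiff_ins K j.1 (e j.1) _)
  · intro x hx
    obtain ⟨u, hu, ⟨w, hw⟩, hxu⟩ := nlf_frontier_subset K hx
    obtain ⟨ε, θ, hθ, hχ⟩ := nlf_exists_chart K hxu
    have hu' : ∀ i, 0 ≤ u i ∧ u i ≤ 1 := by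
      rw [← Set.pi_univ_Icc, Set.mem_univ_pi] at hu
      intro i
      simpa using hu i
    have hp : ∀ i : NlfIdx K, 0 ≤ (Sum.elim u θ : NlfIdx K → ℝ) i ∧
        (Sum.elim u θ : NlfIdx K → ℝ) i ≤ 1 := by
      rintro (i | i)
      · exact hu' i
      · exact hθ i
    rcases hw with hw | hw
    · obtain ⟨q, hq, hqp⟩ := nlf_ins_surj K w (e w) 0 (Sum.elim u θ) hp (by simpa using hw)
      refine Set.mem_iUnion.mpr ⟨(w, false, ε), q, hq, ?_⟩
      simp only [Bool.false_eq_true, if_false]
      rw [hqp, hχ]
    · obtain ⟨q, hq, hqp⟩ := nlf_ins_surj K w (e w) 1 (Sum.elim u θ) hp (by simpa using hw)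
      refine Set.mem_iUnion.mpr ⟨(w, true, ε), q, hq, ?_⟩
      simp only [if_true]
      rw [hqp, hχ]

/-- **(P2)** of the analytic second inequality. -/
theorem normLeOneFrontier : NormLeOneFrontierStatement := by
  intro K _ _ m hm
  exact nlf_lipCover_frontier K m hm

end Fermat.Agent.S14An
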