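import Mathlib
import Fermat.Agent.S14.Analytic.P8Defs

set_option autoImplicit false

open NumberField Filter Topology
open scoped nonZeroDivisors

namespace Fermat.Agent.S14An

/-- **(P8F)** the two bounds for `LProd` give the second inequality. -/
theorem secondIneq_of (hL : LProdLowerStatement) (hU : LProdUpperStatement) :
    S14.SecondIneq := by
  intro E M _ _ _ _ _ _ N hN
  obtain ⟨c, δ, hc, hδ, hlow⟩ := hL E M N hN
  obtain ⟨C, hup⟩ := hU E N
  by_contra hcon
  rw [not_le] at hcon
  have hn0 : 0 < Module.finrank E M := Module.finrank_pos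
  have hnr : (0 : ℝ) < (Module.finrank E M : ℝ) := by exact_mod_cast hn0
  have hhn : (Module.finrank E M : ℝ) < (N.index : ℝ) := by exact_mod_cast hcon
  set α : ℝ := (N.index : ℝ) / (Module.finrank E M : ℝ) - 1 with hα
  have hαpos : 0 < α := by
    rw [hα, sub_pos, one_lt_div hnr]
    exact hhn
  have hev : ∀ᶠ u : ℝ in atTop, C / c < u ^ α ∧ max (1 / δ) 1 < u :=
    ((tendsto_rpow_atTop hαpos).eventually_gt_atTop (C / c)).and
      (eventually_gt_atTop (max (1 / δ) 1))
  obtain ⟨u, hu1, hu2⟩ := hev.exists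
  have hu_gt1 : 1 < u := lt_of_le_of_lt (le_max_right _ _) hu2
  have hu_gtδ : 1 / δ < u := lt_of_le_of_lt (le_max_left _ _) hu2
  have hupos : 0 < u := by linarith
  set s : ℝ := 1 + 1 / u with hs
  have hs1 : 1 < s := by rw [hs]; have : 0 < 1 / u := by positivity
                         linarith
  have hsδ : s < 1 + δ := by
    rw [hs]
    have : 1 / u < δ := by
      rw [div_lt_iff₀ hupos]
      rw [div_lt_iff₀ hδ] at hu_gtδ
      linarith
    linarith
  have hs2 : s ≤ 2 := by
    rw [hs]
    have : 1 / u ≤ 1 := by rw [div_le_one hupos]; exact hu_gt1.le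
    linarith
  have hsu : 1 / (s - 1) = u := by
    rw [hs]; field_simp; simp
  have h1 := hlow s hs1 hsδ
  have h2 := hup s hs1 hs2
  rw [hsu] at h1
  have h3 : C / (s - 1) = C * u := by rw [← hsu]; ring
  rw [h3] at h2
  have h4 : c * u ^ ((N.index : ℝ) / (Module.finrank E M : ℝ)) ≤ C * u := h1.trans h2
  have h5 : u ^ ((N.index : ℝ) / (Module.finrank E M : ℝ)) = u ^ α * u := by
    have : (N.index : ℝ) / (Module.finrank E M : ℝ) = α + 1 := by rw [hα]; ring
    rw [this, Real.rpow_add hupos, Real.rpow_one]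
  rw [h5] at h4
  have h6 : c * u ^ α ≤ C := by
    have : c * u ^ α * u ≤ C * u := by linarith [h4, mul_assoc c (u ^ α) u]
    exact le_of_mul_le_mul_right this hupos
  have h7 : u ^ α ≤ C / c := by
    rw [le_div_iff₀ hc]; linarith
  linarith

end Fermat.Agent.S14An
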