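import Fermat.Agent.S14.Analytic.LatticeCount
import Fermat.Agent.S14.Analytic.NormLeOneFrontier
import Fermat.Agent.S14.Analytic.ClassCount
import Fermat.Agent.S14.Analytic.LBound
import Fermat.Agent.S14.Analytic.LProdLower
import Fermat.Agent.S14.Analytic.LProdUpper
import Fermat.Agent.S14.Analytic.SecondIneq

/-!
# S14, H2 (second inequality), Route II (analytic): the unconditional statement

`secondIneq : Fermat.Agent.S14.SecondIneq` and `secondIneqKummer : Fermat.Agent.S14.SecondIneqKummer`,
assembled from the work packages P1–P8 of `NOTES/blueprint-S14-H2-analytic.md`:

* P1 `latticeCount` (helper70), P2 `normLeOneFrontier` (helper47),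
  P3 `classCount_of` (helper63, helper2), P4 `lBound_of` (helper50),
* P5 `eulerChar` (helper59), P6 `charProd` (helper69), P7 `normClassPrimeSum` (helper77),
* P8L `lProdLower` (helper47), P8U `lProdUpper_of`, P8F `secondIneq_of` (helper70).
-/

set_option autoImplicit false

namespace Fermat.Agent.S14An

/-- P3, unconditional. -/
theorem classCountStatement : ClassCountStatement :=
  classCount_of latticeCount normLeOneFrontier

/-- P4, unconditional. -/
theorem lBoundStatement : LBoundStatement :=
  lBound_of classCountStatement

/-- P8U, unconditional. -/
theorem lProdUpper : LProdUpperStatement :=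
  lProdUpper_of lBoundStatement

/-- **(H2) The second inequality** of class field theory, in the form of `S14/Interface.lean`. -/
theorem secondIneq : Fermat.Agent.S14.SecondIneq :=
  secondIneq_of lProdLower lProdUpper

/-- **(H2')** the Kummer case used by the crossing argument. -/
theorem secondIneqKummer : Fermat.Agent.S14.SecondIneqKummer :=
  Fermat.Agent.S14.SecondIneq.kummer secondIneq

end Fermat.Agent.S14An
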