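import Fermat.Agent.S14.Analytic.Defs

/-!
# S14 analytic second inequality, piece P3a: glue to Mathlib's `idealSet` / `normLeOne`

For a class `C` and an integral ideal `J` in the class `C⁻¹`:
`classCount K C x * torsionOrder K = latN (fractionalIdealLatticeBasis K J) (normLeOne K) t`
with `t ^ d = x * N J`, `d = [K : ℚ]`; plus the Mathlib limit in `classCount` language.
-/

set_option autoImplicit false

open NumberField Filter Topology IsDedekindDomain
open scoped nonZeroDivisors Pointwise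
open NumberField.mixedEmbedding NumberField.mixedEmbedding.fundamentalCone

namespace Fermat.Agent.S14An

noncomputable section

variable (K : Type) [Field K] [NumberField K]

/-- (G1) the index type of `fractionalIdealLatticeBasis` has `[K : ℚ]` elements. -/
theorem card_chooseBasisIndex_fractionalIdeal (I : (FractionalIdeal (𝓞 K)⁰ K)ˣ) :
    Fintype.card (Module.Free.ChooseBasisIndex ℤ I) =
      Module.finrank ℚ K := by
  rw [← Module.finrank_eq_card_chooseBasisIndex, fractionalIdeal_rank,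
    RingOfIntegers.rank]

/-- membership in a dilate of `normLeOne`. -/
theorem mem_smul_normLeOne_iff {t : ℝ} (ht : 0 < t) (x : mixedSpace K) :
    x ∈ t • normLeOne K ↔
      x ∈ fundamentalCone K ∧ mixedEmbedding.norm x ≤ t ^ Module.finrank ℚ K := by
  have ht' : t⁻¹ ≠ 0 := inv_ne_zero ht.ne'
  rw [Set.mem_smul_set_iff_inv_smul_mem₀ ht.ne', mem_normLeOne, smul_mem_iff_mem ht',
    mixedEmbedding.norm_smul, abs_of_pos (inv_pos.mpr ht), inv_pow,
    inv_mul_le_iff₀ (pow_pos ht _), mul_one]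

/-- the lattice points of `t • normLeOne` are the elements of `idealSet` of norm `≤ t ^ d`. -/
theorem latN_eq_card_idealSet (J : (Ideal (𝓞 K))⁰) {t : ℝ} (ht : 0 < t) :
    latN (fractionalIdealLatticeBasis K (FractionalIdeal.mk0 K J)) (normLeOne K) t =
      Nat.card {a : idealSet K J //
        mixedEmbedding.norm (a : mixedSpace K) ≤ t ^ Module.finrank ℚ K} := by
  unfold latN
  refine Nat.card_congr ?_
  refine (Equiv.subtypeEquivRight fun x => ?_).trans
    (Equiv.subtypeSubtypeEquivSubtypeInter (fun x : mixedSpace K => x ∈ idealSet K J)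
      (fun x => mixedEmbedding.norm x ≤ t ^ Module.finrank ℚ K)).symm
  rw [span_idealLatticeBasis, mem_smul_normLeOne_iff K ht, idealSet, Set.mem_inter_iff,
    SetLike.mem_coe]
  tauto

/-- (reproof of Mathlib's private lemma) ideals in the class `C` of norm `≤ s` correspond to
principal ideals divisible by `J` of norm `≤ s * N J`, when `J` is in the class `C⁻¹`. -/
theorem classCount_eq_card_dvd (C : ClassGroup (𝓞 K)) (J : (Ideal (𝓞 K))⁰)
    (hJ : ClassGroup.mk0 J = C⁻¹) (s : ℝ) :
    classCount K C s =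
      Nat.card {I : (Ideal (𝓞 K))⁰ // (J : Ideal (𝓞 K)) ∣ I ∧
        Submodule.IsPrincipal (I : Ideal (𝓞 K)) ∧
        (Ideal.absNorm (I : Ideal (𝓞 K)) : ℝ) ≤ s * Ideal.absNorm (J : Ideal (𝓞 K))} := by
  unfold classCount
  simp_rw [← nonZeroDivisors_dvd_iff_dvd_coe]
  refine Nat.card_congr ?_
  refine ((Equiv.dvd J).subtypeEquiv fun I ↦ ?_).trans
    (Equiv.subtypeSubtypeEquivSubtypeInter (fun I : (Ideal (𝓞 K))⁰ ↦ J ∣ I) _)
  rw [← ClassGroup.mk0_eq_one_iff (SetLike.coe_mem _)]
  simp_rw [Equiv.dvd_apply, Submonoid.coe_mul, ← Submonoid.mul_def, _root_.map_mul, hJ,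
    inv_mul_eq_one, Nat.cast_mul, mul_comm s, eq_comm, and_comm, and_congr_left_iff]
  exact fun _ ↦
    (mul_le_mul_iff_of_pos_left
      (Nat.cast_pos.mpr (Ideal.absNorm_pos_of_nonZeroDivisors J))).symm

/-- `classCount` times the number of roots of unity counts elements of `idealSet`. -/
theorem classCount_mul_torsionOrder_eq_card_idealSet (C : ClassGroup (𝓞 K))
    (J : (Ideal (𝓞 K))⁰) (hJ : ClassGroup.mk0 J = C⁻¹) (s : ℝ) :
    classCount K C s * Units.torsionOrder K =
      Nat.card {a : idealSet K J //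
        mixedEmbedding.norm (a : mixedSpace K) ≤ s * Ideal.absNorm (J : Ideal (𝓞 K))} := by
  rw [classCount_eq_card_dvd K C J hJ, card_isPrincipal_dvd_norm_le]

/-- (G2) `t`-form of the glue. -/
theorem latN_eq_classCount (C : ClassGroup (𝓞 K)) (J : (Ideal (𝓞 K))⁰)
    (hJ : ClassGroup.mk0 J = C⁻¹) (t : ℝ) (ht : 0 < t) :
    latN (fractionalIdealLatticeBasis K (FractionalIdeal.mk0 K J)) (normLeOne K) t =
      classCount K C (t ^ Module.finrank ℚ K / (Ideal.absNorm (J : Ideal (𝓞 K)) : ℝ)) *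
        Units.torsionOrder K := by
  have hN : ((Ideal.absNorm (J : Ideal (𝓞 K)) : ℕ) : ℝ) ≠ 0 :=
    Nat.cast_ne_zero.mpr (Ideal.absNorm_ne_zero_of_nonZeroDivisors J)
  rw [latN_eq_card_idealSet K J ht, classCount_mul_torsionOrder_eq_card_idealSet K C J hJ,
    div_mul_cancel₀ _ hN]

/-- (G3) `x`-form of the glue. -/
theorem classCount_mul_torsionOrder (C : ClassGroup (𝓞 K)) (J : (Ideal (𝓞 K))⁰)
    (hJ : ClassGroup.mk0 J = C⁻¹) (x : ℝ) (hx : 0 < x) :
    classCount K C x * Units.torsionOrder K =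
      latN (fractionalIdealLatticeBasis K (FractionalIdeal.mk0 K J)) (normLeOne K)
        ((x * (Ideal.absNorm (J : Ideal (𝓞 K)) : ℝ)) ^ (1 / (Module.finrank ℚ K : ℝ))) := by
  have hN : (0 : ℝ) < (Ideal.absNorm (J : Ideal (𝓞 K)) : ℕ) :=
    Nat.cast_pos.mpr (Ideal.absNorm_pos_of_nonZeroDivisors J)
  have hd : (Module.finrank ℚ K : ℝ) ≠ 0 := Nat.cast_ne_zero.mpr Module.finrank_pos.ne'
  have hxN : 0 < x * (Ideal.absNorm (J : Ideal (𝓞 K)) : ℝ) := mul_pos hx hN
  rw [latN_eq_classCount K C J hJ _ (Real.rpow_pos_of_pos hxN _), ← Real.rpow_natCast,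
    ← Real.rpow_mul hxN.le, one_div, inv_mul_cancel₀ hd, Real.rpow_one,
    mul_div_cancel_right₀ _ hN.ne']

/-- the constant of the ideal counting asymptotics (independent of the class). -/
def kappa : ℝ :=
  2 ^ InfinitePlace.nrRealPlaces K * (2 * Real.pi) ^ InfinitePlace.nrComplexPlaces K *
    Units.regulator K / ((Units.torsionOrder K : ℝ) * √|(discr K : ℝ)|)

/-- (G4) Mathlib's limit, in `classCount` language. -/
theorem tendsto_classCount_div (C : ClassGroup (𝓞 K)) :
    Tendsto (fun s : ℝ => (classCount K C s : ℝ) / s) atTop (𝓝 (kappa K)) :=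
  NumberField.Ideal.tendsto_norm_le_and_mk_eq_div_atTop K C

end

end Fermat.Agent.S14An
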