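import Mathlib
import Fermat.Agent.S14.Analytic.Defs

set_option autoImplicit false

open Filter Topology
open scoped Pointwise

namespace Fermat.Agent.S14An.LatticeCount

variable {ι : Type} [Fintype ι]

/-- The real vector attached to an integer vector. -/
def toR (z : ι → ℤ) : ι → ℝ := fun i => (z i : ℝ)

/-- The closed unit cube with lower corner `z`. -/
def cube (z : ι → ℤ) : Set (ι → ℝ) := Set.Icc (toR z) (toR z + 1)

omit [Fintype ι] in
lemma toR_mem_cube (z : ι → ℤ) : toR z ∈ cube z :=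
  ⟨le_rfl, fun i => by simp [toR]⟩

omit [Fintype ι] in
lemma toR_injective : Function.Injective (toR : (ι → ℤ) → ι → ℝ) := by
  intro a b h
  funext i
  have := congrFun h i
  simpa [toR] using this

/-- integer points in a sup-ball -/
def zBall (c : ι → ℝ) (R : ℝ) : Set (ι → ℤ) := {z | ∀ i, |(z i : ℝ) - c i| ≤ R}

lemma zBall_finite_ncard (c : ι → ℝ) (R : ℝ) :
    (zBall c R).Finite ∧ (zBall c R).ncard ≤ (⌊2 * R⌋₊ + 1) ^ Fintype.card ι := by
  classical
  set F : Finset (ι → ℤ) := Fintype.piFinset (fun i => Finset.Icc ⌈c i - R⌉ ⌊c i + R⌋) with hF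
  have hsub : zBall c R ⊆ (F : Set (ι → ℤ)) := by
    intro z hz
    rw [Finset.mem_coe, hF, Fintype.mem_piFinset]
    intro i
    rw [Finset.mem_Icc]
    have := abs_le.mp (hz i)
    exact ⟨Int.ceil_le.mpr (by linarith), Int.le_floor.mpr (by linarith)⟩
  have hfin : (zBall c R).Finite := F.finite_toSet.subset hsub
  refine ⟨hfin, ?_⟩
  calc (zBall c R).ncard ≤ (F : Set (ι → ℤ)).ncard := Set.ncard_le_ncard hsub F.finite_toSet
    _ = F.card := Set.ncard_coe_finset F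
    _ = ∏ i, (Finset.Icc ⌈c i - R⌉ ⌊c i + R⌋).card := by rw [hF, Fintype.card_piFinset]
    _ ≤ ∏ _i : ι, (⌊2 * R⌋₊ + 1) := by
        refine Finset.prod_le_prod (fun _ _ => Nat.zero_le _) (fun i _ => ?_)
        rw [Int.card_Icc]
        by_cases hR : 0 ≤ R
        · have h1 : (⌊c i + R⌋ + 1 - ⌈c i - R⌉ : ℤ) ≤ (⌊2 * R⌋₊ : ℤ) + 1 := by
            have ha : ((⌊c i + R⌋ : ℤ) : ℝ) ≤ c i + R := Int.floor_le _
            have hb : c i - R ≤ ((⌈c i - R⌉ : ℤ) : ℝ) := Int.le_ceil _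
            have hc : ((⌊c i + R⌋ - ⌈c i - R⌉ : ℤ) : ℝ) ≤ 2 * R := by push_cast; linarith
            have hd : (⌊c i + R⌋ - ⌈c i - R⌉ : ℤ) ≤ ⌊2 * R⌋ := Int.le_floor.mpr hc
            have he : (⌊2 * R⌋ : ℤ) = (⌊2 * R⌋₊ : ℤ) := by
              rw [Int.natCast_floor_eq_floor (by linarith)]
            omega
          omega
        · rw [not_le] at hR
          have h1 : (⌊c i + R⌋ + 1 - ⌈c i - R⌉ : ℤ) ≤ 0 := by
            have ha : ((⌊c i + R⌋ : ℤ) : ℝ) ≤ c i + R := Int.floor_le _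
            have hb : c i - R ≤ ((⌈c i - R⌉ : ℤ) : ℝ) := Int.le_ceil _
            have hc : ((⌊c i + R⌋ : ℤ) : ℝ) < ((⌈c i - R⌉ : ℤ) : ℝ) := by linarith
            have hd : (⌊c i + R⌋ : ℤ) < ⌈c i - R⌉ := by exact_mod_cast hc
            omega
          have : (⌊c i + R⌋ + 1 - ⌈c i - R⌉ : ℤ).toNat = 0 := Int.toNat_eq_zero.mpr h1
          omega
    _ = (⌊2 * R⌋₊ + 1) ^ Fintype.card ι := by simp


omit [Fintype ι] in
lemma isPreconnected_cube (z : ι → ℤ) : IsPreconnected (cube z) :=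
  (convex_Icc _ _).isPreconnected

/-- A preconnected set which does not meet the frontier of `S` is inside `S` or disjoint from
`S`. -/
lemma mem_iff_of_disjoint_frontier {X : Type*} [TopologicalSpace X] {S A : Set X}
    (hA : IsPreconnected A) (h : Disjoint A (frontier S)) {x y : X} (hx : x ∈ A) (hy : y ∈ A) :
    x ∈ S ↔ y ∈ S := by
  have hcov : A ⊆ interior S ∪ (closure S)ᶜ := by
    intro a ha
    by_cases h1 : a ∈ interior S
    · exact Or.inl h1
    · right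
      intro h2
      exact (Set.disjoint_left.mp h ha) ⟨h2, h1⟩
  have hdisj : Disjoint (interior S) (closure S)ᶜ := by
    rw [Set.disjoint_left]
    intro a ha hna
    exact hna (subset_closure (interior_subset ha))
  rcases hA.subset_or_subset isOpen_interior isClosed_closure.isOpen_compl hdisj hcov with h1 | h1
  · exact ⟨fun _ => interior_subset (h1 hy), fun _ => interior_subset (h1 hx)⟩
  · exact ⟨fun hxS => absurd (subset_closure hxS) (h1 hx),
      fun hyS => absurd (subset_closure hyS) (h1 hy)⟩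

omit [Fintype ι] in
lemma mem_iff_of_good {S : Set (ι → ℝ)} {z : ι → ℤ} (h : Disjoint (cube z) (frontier S))
    {x : ι → ℝ} (hx : x ∈ cube z) : x ∈ S ↔ toR z ∈ S :=
  mem_iff_of_disjoint_frontier (isPreconnected_cube z) h hx (toR_mem_cube z)

/-- The cubes meeting the frontier of `S`. -/
def badSet (S : Set (ι → ℝ)) : Set (ι → ℤ) := {z | ¬ Disjoint (cube z) (frontier S)}

/-- The integer points of `S`. -/
def zPts (S : Set (ι → ℝ)) : Set (ι → ℤ) := {z | toR z ∈ S}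

/-- The points of `(1/k) ℤ^ι` in `S`, as integer vectors. -/
def zPtsDiv (k : ℕ) (S : Set (ι → ℝ)) : Set (ι → ℤ) := {y | (fun i => (y i : ℝ) / k) ∈ S}

/-- quotient and remainder, coordinatewise -/
noncomputable def dm (k : ℕ) [NeZero k] : (ι → ℤ) ≃ (ι → ℤ) × (ι → Fin k) :=
  (Equiv.piCongrRight (fun _ => Int.divModEquiv k)).trans (Equiv.arrowProdEquivProdArrow _ _ _)

omit [Fintype ι] in
lemma dm_fst (k : ℕ) [NeZero k] (y : ι → ℤ) (i : ι) : ((dm k) y).1 i = y i / (k : ℤ) := by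
  simp [dm, Int.divModEquiv]

omit [Fintype ι] in
lemma div_mem_cube (k : ℕ) [NeZero k] (y : ι → ℤ) :
    (fun i => (y i : ℝ) / k) ∈ cube ((dm k y).1) := by
  have hk : (0 : ℝ) < k := Nat.cast_pos.mpr (Nat.pos_of_ne_zero (NeZero.ne k))
  have hkz : (0 : ℤ) < k := by exact_mod_cast Nat.pos_of_ne_zero (NeZero.ne k)
  constructor
  · intro i
    simp only [toR, dm_fst]
    rw [le_div_iff₀ hk]
    have := Int.ediv_mul_le (y i) hkz.ne'
    exact_mod_cast this
  · intro i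
    simp only [toR, dm_fst, Pi.add_apply, Pi.one_apply]
    rw [div_le_iff₀ hk]
    have := Int.lt_ediv_add_one_mul_self (y i) hkz
    have h2 : ((y i : ℤ) : ℝ) < ((y i / (k : ℤ) + 1) * (k : ℤ) : ℤ) := by exact_mod_cast this
    push_cast at h2
    linarith

lemma ncard_preimage_dm (k : ℕ) [NeZero k] (Z : Set (ι → ℤ)) (hZ : Z.Finite) :
    ((dm k) ⁻¹' (Z ×ˢ (Set.univ : Set (ι → Fin k)))).Finite ∧
    ((dm k) ⁻¹' (Z ×ˢ (Set.univ : Set (ι → Fin k)))).ncard = Z.ncard * k ^ Fintype.card ι := by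
  have hfin : (Z ×ˢ (Set.univ : Set (ι → Fin k))).Finite := hZ.prod Set.finite_univ
  constructor
  · exact hfin.preimage (dm k).injective.injOn
  · rw [Set.ncard_preimage_of_injective_subset_range (dm k).injective
      (by rw [(dm k).range_eq_univ]; exact Set.subset_univ _)]
    rw [Set.ncard_prod, Set.ncard_univ]
    congr 1
    classical
    rw [Nat.card_eq_fintype_card, Fintype.card_fun, Fintype.card_fin]

/-- **Key comparison**: `| #((1/k)ℤ^ι ∩ S) - k^n #(ℤ^ι ∩ S) | ≤ k^n #bad`. -/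
lemma abs_ncard_sub_le (k : ℕ) [NeZero k] (S : Set (ι → ℝ)) (hS : (zPts S).Finite)
    (hbad : (badSet S).Finite) :
    (zPtsDiv k S).Finite ∧
    |((zPtsDiv k S).ncard : ℝ) - (k : ℝ) ^ Fintype.card ι * (zPts S).ncard| ≤
      (k : ℝ) ^ Fintype.card ι * (badSet S).ncard := by
  have key : ∀ y : ι → ℤ, (dm k y).1 ∉ badSet S → (y ∈ zPtsDiv k S ↔ (dm k y).1 ∈ zPts S) := by
    intro y hy
    simp only [badSet, Set.mem_ofPred_eq, not_not] at hy
    exact mem_iff_of_good hy (div_mem_cube k y)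
  have h1 : zPtsDiv k S ⊆ (dm k) ⁻¹' ((zPts S ∪ badSet S) ×ˢ Set.univ) := by
    intro y hy
    simp only [Set.mem_preimage, Set.mem_prod, Set.mem_univ, and_true, Set.mem_union]
    by_cases hb : (dm k y).1 ∈ badSet S
    · exact Or.inr hb
    · exact Or.inl ((key y hb).mp hy)
  have h2 : (dm k) ⁻¹' (zPts S ×ˢ Set.univ) ⊆ zPtsDiv k S ∪ (dm k) ⁻¹' (badSet S ×ˢ Set.univ) := by
    intro y hy
    simp only [Set.mem_preimage, Set.mem_prod, Set.mem_univ, and_true] at hy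
    simp only [Set.mem_union, Set.mem_preimage, Set.mem_prod, Set.mem_univ, and_true]
    by_cases hb : (dm k y).1 ∈ badSet S
    · exact Or.inr hb
    · exact Or.inl ((key y hb).mpr hy)
  obtain ⟨f1, c1⟩ := ncard_preimage_dm k (zPts S ∪ badSet S) (hS.union hbad)
  obtain ⟨f2, c2⟩ := ncard_preimage_dm k (zPts S) hS
  obtain ⟨f3, c3⟩ := ncard_preimage_dm k (badSet S) hbad
  have hAfin : (zPtsDiv k S).Finite := f1.subset h1
  refine ⟨hAfin, ?_⟩
  have e1 : (zPtsDiv k S).ncard ≤ (zPts S ∪ badSet S).ncard * k ^ Fintype.card ι := by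
    rw [← c1]; exact Set.ncard_le_ncard h1 f1
  have e1' : (zPts S ∪ badSet S).ncard ≤ (zPts S).ncard + (badSet S).ncard :=
    Set.ncard_union_le _ _
  have e2 : (zPts S).ncard * k ^ Fintype.card ι ≤
      (zPtsDiv k S).ncard + (badSet S).ncard * k ^ Fintype.card ι := by
    rw [← c2, ← c3]
    exact (Set.ncard_le_ncard h2 (hAfin.union f3)).trans (Set.ncard_union_le _ _)
  have e1r : ((zPtsDiv k S).ncard : ℝ) ≤
      ((zPts S).ncard + (badSet S).ncard) * (k : ℝ) ^ Fintype.card ι := by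
    have := e1.trans (Nat.mul_le_mul_right _ e1')
    exact_mod_cast this
  have e2r : ((zPts S).ncard : ℝ) * (k : ℝ) ^ Fintype.card ι ≤
      (zPtsDiv k S).ncard + (badSet S).ncard * (k : ℝ) ^ Fintype.card ι := by
    exact_mod_cast e2
  rw [abs_le]
  constructor <;> nlinarith


/-! ### finiteness and the bound for the bad cubes -/

lemma zPts_finite_of_isBounded {S : Set (ι → ℝ)} (hS : Bornology.IsBounded S) :
    (zPts S).Finite := by
  obtain ⟨R, hR⟩ := hS.subset_closedBall (0 : ι → ℝ)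
  refine (zBall_finite_ncard (0 : ι → ℝ) R).1.subset ?_
  intro z hz
  have h1 : toR z ∈ Metric.closedBall (0 : ι → ℝ) R := hR hz
  rw [mem_closedBall_zero_iff] at h1
  intro i
  have h2 : ‖toR z i‖ ≤ ‖toR z‖ := norm_le_pi_norm (toR z) i
  simp only [toR, Real.norm_eq_abs] at h2
  simpa [toR] using h2.trans h1

/-- the grid points of `[0,1]^m` with mesh `1/M` -/
noncomputable def grid (m M : ℕ) (a : Fin m → Fin (M + 1)) : Fin m → ℝ :=
  fun i => ((a i : ℕ) : ℝ) / M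

lemma grid_mem (m M : ℕ) (a : Fin m → Fin (M + 1)) :
    grid m M a ∈ Set.Icc (0 : Fin m → ℝ) 1 := by
  constructor
  · intro i
    simp only [grid, Pi.zero_apply]
    positivity
  · intro i
    simp only [grid, Pi.one_apply]
    rcases Nat.eq_zero_or_pos M with h | h
    · subst h; simp
    · rw [div_le_one (by exact_mod_cast h)]
      have := (a i).2
      exact_mod_cast Nat.lt_succ_iff.mp this

lemma exists_grid_near (m M : ℕ) (hM : 0 < M) (u : Fin m → ℝ)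
    (hu : u ∈ Set.Icc (0 : Fin m → ℝ) 1) :
    ∃ a : Fin m → Fin (M + 1), dist u (grid m M a) ≤ 1 / M := by
  have hMr : (0 : ℝ) < M := by exact_mod_cast hM
  have hfl : ∀ i, ⌊u i * M⌋₊ < M + 1 := by
    intro i
    rw [Nat.lt_succ_iff]
    have h1 : u i * M ≤ M := by
      have := hu.2 i
      simp only [Pi.one_apply] at this
      nlinarith
    calc ⌊u i * M⌋₊ ≤ ⌊(M : ℝ)⌋₊ := Nat.floor_le_floor h1
      _ = M := Nat.floor_natCast M
  refine ⟨fun i => ⟨⌊u i * M⌋₊, hfl i⟩, ?_⟩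
  rw [dist_pi_le_iff (by positivity)]
  intro i
  have h0 : 0 ≤ u i * M := by
    have := hu.1 i
    simp only [Pi.zero_apply] at this
    positivity
  have h1 : (⌊u i * M⌋₊ : ℝ) ≤ u i * M := Nat.floor_le h0
  have h2 : u i * M < ⌊u i * M⌋₊ + 1 := Nat.lt_floor_add_one _
  have hq : (⌊u i * M⌋₊ : ℝ) / M ≤ u i := by rw [div_le_iff₀ hMr]; exact h1
  have hq2 : u i ≤ (⌊u i * M⌋₊ : ℝ) / M + 1 / M := by
    rw [← add_div, le_div_iff₀ hMr]; linarith
  simp only [grid]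
  rw [Real.dist_eq, abs_le]
  constructor <;> linarith


omit [Fintype ι] in
lemma frontier_smul_set (t : ℝ) (ht : t ≠ 0) (D : Set (ι → ℝ)) :
    frontier (t • D) = t • frontier D := by
  have := (Homeomorph.smulOfNeZero t ht : (ι → ℝ) ≃ₜ (ι → ℝ)).image_frontier D
  simpa [Set.image_smul] using this.symm

lemma badSet_subset {m J : ℕ} (D : Set (ι → ℝ)) (φ : Fin J → (Fin m → ℝ) → (ι → ℝ))
    (Λ : NNReal) (hLip : ∀ j, LipschitzOnWith Λ (φ j) (Set.Icc 0 1))
    (hcov : frontier D ⊆ ⋃ j, φ j '' Set.Icc 0 1) (t : ℝ) (ht : 1 ≤ t) :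
    badSet (t • D) ⊆ ⋃ j : Fin J, ⋃ a : Fin m → Fin (⌈t⌉₊ + 1),
      zBall (t • φ j (grid m ⌈t⌉₊ a)) ((Λ : ℝ) + 1) := by
  intro z hz
  simp only [badSet, Set.mem_ofPred_eq, Set.not_disjoint_iff] at hz
  obtain ⟨x, hxc, hxf⟩ := hz
  have ht0 : t ≠ 0 := by linarith
  have htpos : 0 < t := by linarith
  rw [frontier_smul_set t ht0] at hxf
  obtain ⟨y, hy, rfl⟩ := hxf
  obtain ⟨j, hj⟩ := Set.mem_iUnion.mp (hcov hy)
  obtain ⟨u, hu, rfl⟩ := hj
  have hM : 0 < ⌈t⌉₊ := Nat.ceil_pos.mpr htpos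
  have hMr : (0 : ℝ) < (⌈t⌉₊ : ℝ) := by exact_mod_cast hM
  have htM : t ≤ (⌈t⌉₊ : ℝ) := Nat.le_ceil t
  obtain ⟨a, ha⟩ := exists_grid_near m ⌈t⌉₊ hM u hu
  have hd : dist (φ j u) (φ j (grid m ⌈t⌉₊ a)) ≤ (Λ : ℝ) * (1 / (⌈t⌉₊ : ℝ)) :=
    ((hLip j).dist_le_mul u hu _ (grid_mem m ⌈t⌉₊ a)).trans
      (mul_le_mul_of_nonneg_left ha Λ.coe_nonneg)
  refine Set.mem_iUnion.mpr ⟨j, Set.mem_iUnion.mpr ⟨a, ?_⟩⟩
  intro i
  have h1 : |(z i : ℝ) - t * φ j u i| ≤ 1 := by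
    have hl := hxc.1 i
    have hr := hxc.2 i
    simp only [toR, Pi.smul_apply, smul_eq_mul, Pi.add_apply, Pi.one_apply] at hl hr
    rw [abs_le]; constructor <;> linarith
  have h2 : |φ j u i - φ j (grid m ⌈t⌉₊ a) i| ≤ (Λ : ℝ) * (1 / (⌈t⌉₊ : ℝ)) := by
    have := dist_le_pi_dist (φ j u) (φ j (grid m ⌈t⌉₊ a)) i
    rw [Real.dist_eq] at this
    exact this.trans hd
  have h3 : t * ((Λ : ℝ) * (1 / (⌈t⌉₊ : ℝ))) ≤ Λ := by
    have : t * ((Λ : ℝ) * (1 / (⌈t⌉₊ : ℝ))) = (Λ : ℝ) * (t / (⌈t⌉₊ : ℝ)) := by ring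
    rw [this]
    have h4 : t / (⌈t⌉₊ : ℝ) ≤ 1 := (div_le_one hMr).mpr htM
    calc (Λ : ℝ) * (t / (⌈t⌉₊ : ℝ)) ≤ (Λ : ℝ) * 1 := mul_le_mul_of_nonneg_left h4 Λ.coe_nonneg
      _ = Λ := mul_one _
  have h5 : |t * φ j u i - t * φ j (grid m ⌈t⌉₊ a) i| ≤ Λ := by
    rw [← mul_sub, abs_mul, abs_of_pos htpos]
    exact (mul_le_mul_of_nonneg_left h2 htpos.le).trans h3
  simp only [Pi.smul_apply, smul_eq_mul]
  calc |(z i : ℝ) - t * φ j (grid m ⌈t⌉₊ a) i|
      = |((z i : ℝ) - t * φ j u i) + (t * φ j u i - t * φ j (grid m ⌈t⌉₊ a) i)| := by ring_nf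
    _ ≤ |(z i : ℝ) - t * φ j u i| + |t * φ j u i - t * φ j (grid m ⌈t⌉₊ a) i| := abs_add_le _ _
    _ ≤ 1 + Λ := add_le_add h1 h5
    _ = (Λ : ℝ) + 1 := add_comm _ _

lemma badSet_ncard_le {m J : ℕ} (D : Set (ι → ℝ)) (φ : Fin J → (Fin m → ℝ) → (ι → ℝ))
    (Λ : NNReal) (hLip : ∀ j, LipschitzOnWith Λ (φ j) (Set.Icc 0 1))
    (hcov : frontier D ⊆ ⋃ j, φ j '' Set.Icc 0 1) (t : ℝ) (ht : 1 ≤ t) :
    (badSet (t • D)).Finite ∧
    ((badSet (t • D)).ncard : ℝ) ≤
      (J * 3 ^ m * ((⌊2 * ((Λ : ℝ) + 1)⌋₊ + 1 : ℕ) : ℝ) ^ Fintype.card ι) * t ^ m := by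
  have hsub := badSet_subset D φ Λ hLip hcov t ht
  set K : ℕ := (⌊2 * ((Λ : ℝ) + 1)⌋₊ + 1) ^ Fintype.card ι with hK
  set U : Set (ι → ℤ) := ⋃ j : Fin J, ⋃ a : Fin m → Fin (⌈t⌉₊ + 1),
      zBall (t • φ j (grid m ⌈t⌉₊ a)) ((Λ : ℝ) + 1) with hU
  have hUfin : U.Finite :=
    Set.finite_iUnion (fun j => Set.finite_iUnion (fun a => (zBall_finite_ncard _ _).1))
  refine ⟨hUfin.subset hsub, ?_⟩
  have h1 : (badSet (t • D)).ncard ≤ U.ncard := Set.ncard_le_ncard hsub hUfin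
  have h2 : U.ncard ≤ ∑ _j : Fin J, ∑ _a : Fin m → Fin (⌈t⌉₊ + 1), K := by
    refine (Set.ncard_iUnion_le_of_fintype _).trans (Finset.sum_le_sum (fun j _ => ?_))
    refine (Set.ncard_iUnion_le_of_fintype _).trans (Finset.sum_le_sum (fun a _ => ?_))
    exact (zBall_finite_ncard _ _).2
  have h3 : (∑ _j : Fin J, ∑ _a : Fin m → Fin (⌈t⌉₊ + 1), K) = J * ((⌈t⌉₊ + 1) ^ m * K) := by
    simp
  have h4 : ((badSet (t • D)).ncard : ℝ) ≤ (J : ℝ) * (((⌈t⌉₊ : ℝ) + 1) ^ m * (K : ℝ)) := by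
    have := h1.trans (h2.trans_eq h3)
    exact_mod_cast this
  have h5 : ((⌈t⌉₊ : ℝ) + 1) ^ m ≤ (3 * t) ^ m := by
    refine pow_le_pow_left₀ (by positivity) ?_ m
    have := Nat.ceil_lt_add_one (by linarith : (0 : ℝ) ≤ t)
    linarith
  calc ((badSet (t • D)).ncard : ℝ) ≤ (J : ℝ) * (((⌈t⌉₊ : ℝ) + 1) ^ m * (K : ℝ)) := h4
    _ ≤ (J : ℝ) * ((3 * t) ^ m * (K : ℝ)) := by gcongr
    _ = (J * 3 ^ m * ((⌊2 * ((Λ : ℝ) + 1)⌋₊ + 1 : ℕ) : ℝ) ^ Fintype.card ι) * t ^ m := by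
        rw [hK, mul_pow]; push_cast; ring

omit [Fintype ι] in
lemma zPts_mul_smul (k : ℕ) (hk : 1 ≤ k) (t : ℝ) (D : Set (ι → ℝ)) :
    zPts (((k : ℝ) * t) • D) = zPtsDiv k (t • D) := by
  have hk0 : (k : ℝ) ≠ 0 := by
    have : (0 : ℝ) < k := by exact_mod_cast hk
    exact this.ne'
  ext z
  simp only [zPts, zPtsDiv, Set.mem_ofPred_eq]
  rw [mul_smul, Set.mem_smul_set_iff_inv_smul_mem₀ hk0]
  have : (k : ℝ)⁻¹ • toR z = fun i => (z i : ℝ) / k := by
    funext i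
    simp [toR, div_eq_inv_mul]
  rw [this]

/-- **P1 in coordinates.** -/
theorem coord_count (D : Set (ι → ℝ)) (m : ℕ) (hD : Bornology.IsBounded D)
    (hm : m + 1 = Fintype.card ι) (hL : LipCover m (frontier D)) :
    ∃ C : ℝ, ∀ t : ℝ, 1 ≤ t → ∀ k : ℕ, 1 ≤ k →
      |((zPts (((k : ℝ) * t) • D)).ncard : ℝ) - (k : ℝ) ^ (m + 1) * (zPts (t • D)).ncard| ≤
        C * (k : ℝ) ^ (m + 1) * t ^ m := by
  obtain ⟨J, φ, Λ, hLip, hcov⟩ := hL
  refine ⟨J * 3 ^ m * ((⌊2 * ((Λ : ℝ) + 1)⌋₊ + 1 : ℕ) : ℝ) ^ Fintype.card ι, ?_⟩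
  intro t ht k hk
  have : NeZero k := ⟨by omega⟩
  obtain ⟨hbf, hbc⟩ := badSet_ncard_le D φ Λ hLip hcov t ht
  have hfin : (zPts (t • D)).Finite := zPts_finite_of_isBounded (hD.smul₀ t)
  obtain ⟨-, hmain⟩ := abs_ncard_sub_le k (t • D) hfin hbf
  rw [zPts_mul_smul k hk, hm]
  refine hmain.trans ?_
  have hkn : (0 : ℝ) ≤ (k : ℝ) ^ Fintype.card ι := by positivity
  calc (k : ℝ) ^ Fintype.card ι * (badSet (t • D)).ncard
      ≤ (k : ℝ) ^ Fintype.card ι *
        ((J * 3 ^ m * ((⌊2 * ((Λ : ℝ) + 1)⌋₊ + 1 : ℕ) : ℝ) ^ Fintype.card ι) * t ^ m) :=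
        mul_le_mul_of_nonneg_left hbc hkn
    _ = _ := by ring


/-! ### transport to a general normed space with a basis -/

section transport

variable {E : Type} [NormedAddCommGroup E] [NormedSpace ℝ E] [FiniteDimensional ℝ E]

lemma latN_eq (b : Module.Basis ι ℝ E) (D : Set E) (s : ℝ) :
    latN b D s = (zPts (s • (b.equivFunL '' D))).ncard := by
  have himg : b.equivFunL '' (s • D) = s • (b.equivFunL '' D) := image_smul_set _ _ _
  have hinj : Function.Injective (fun z : ι → ℤ => b.equivFunL.symm (toR z)) :=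
    b.equivFunL.symm.injective.comp toR_injective
  have hrepr : ∀ (x : E) (i : ι), b.repr x i = b.equivFunL x i := fun x i => rfl
  have hset : {x : E | x ∈ Submodule.span ℤ (Set.range b) ∧ x ∈ s • D} =
      (fun z : ι → ℤ => b.equivFunL.symm (toR z)) '' zPts (s • (b.equivFunL '' D)) := by
    ext x
    constructor
    · rintro ⟨hx1, hx2⟩
      rw [b.mem_span_iff_repr_mem ℤ] at hx1
      choose z hz using hx1
      have h1 : toR z = b.equivFunL x := by
        funext i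
        rw [← hrepr]
        simpa [toR] using hz i
      refine ⟨z, ?_, ?_⟩
      · show toR z ∈ s • (b.equivFunL '' D)
        rw [h1, ← himg]
        exact Set.mem_image_of_mem _ hx2
      · show b.equivFunL.symm (toR z) = x
        rw [h1, ContinuousLinearEquiv.symm_apply_apply]
    · rintro ⟨z, hz, rfl⟩
      have hz' : toR z ∈ b.equivFunL '' (s • D) := by rw [himg]; exact hz
      obtain ⟨y, hy, hyz⟩ := hz'
      have hy' : b.equivFunL.symm (toR z) = y := by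
        rw [← hyz, ContinuousLinearEquiv.symm_apply_apply]
      constructor
      · rw [b.mem_span_iff_repr_mem ℤ]
        intro i
        refine ⟨z i, ?_⟩
        show _ = b.repr (b.equivFunL.symm (toR z)) i
        rw [hrepr, ContinuousLinearEquiv.apply_symm_apply]
        simp [toR]
      · show b.equivFunL.symm (toR z) ∈ s • D
        rw [hy']; exact hy
  unfold latN
  rw [← Set.ncard_image_of_injective _ hinj, ← hset]
  exact Nat.card_coe_set_eq _

lemma lipCover_image (b : Module.Basis ι ℝ E) {m : ℕ} {S : Set E} (h : LipCover m S) :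
    LipCover m (b.equivFunL '' S) := by
  obtain ⟨J, φ, Λ, hLip, hcov⟩ := h
  refine ⟨J, fun j => b.equivFunL ∘ φ j, ‖(b.equivFunL : E →L[ℝ] (ι → ℝ))‖₊ * Λ, ?_, ?_⟩
  · intro j
    exact b.equivFunL.lipschitz.comp_lipschitzOnWith (hLip j)
  · rintro _ ⟨x, hx, rfl⟩
    obtain ⟨j, hj⟩ := Set.mem_iUnion.mp (hcov hx)
    obtain ⟨u, hu, rfl⟩ := hj
    exact Set.mem_iUnion.mpr ⟨j, ⟨u, hu, rfl⟩⟩

end transport

end Fermat.Agent.S14An.LatticeCount

namespace Fermat.Agent.S14An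

open LatticeCount in
/-- **(P1)** lattice points in dilates of a bounded set with Lipschitz boundary. -/
theorem latticeCount : LatticeCountStatement := by
  intro ι E _ _ _ _ b D m hD hm hL
  have hD' : Bornology.IsBounded (b.equivFunL '' D) :=
    b.equivFunL.lipschitz.isBounded_image hD
  have hL' : LipCover m (frontier (b.equivFunL '' D)) := by
    have := b.equivFunL.toHomeomorph.image_frontier D
    have h2 : frontier (b.equivFunL '' D) = b.equivFunL '' frontier D := this.symm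
    rw [h2]
    exact lipCover_image b hL
  obtain ⟨C, hC⟩ := coord_count (b.equivFunL '' D) m hD' hm hL'
  refine ⟨C, fun t ht k hk => ?_⟩
  rw [latN_eq, latN_eq]
  exact hC t ht k hk

end Fermat.Agent.S14An
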